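import Fermat.Agent.EC.Frob.CharPoly

/-!
# The Hasse bound for `apOfModel`
-/

set_option autoImplicit false

namespace Fermat.Agent.EC

theorem isElliptic_reductionMod (W : WeierstrassCurve ℤ) {l : ℕ} [Fact l.Prime]
    (hgood : W.IsGoodPrimeFor l) : (W.reductionMod l).IsElliptic := by
  refine ⟨isUnit_iff_ne_zero.mpr ?_⟩
  rw [WeierstrassCurve.reductionMod, WeierstrassCurve.map_Δ, eq_intCast, Ne,
    ZMod.intCast_zmod_eq_zero_iff_dvd]
  exact hgood

/-- Hasse's bound. -/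
theorem apOfModel_sq_le (W : WeierstrassCurve ℤ) {l : ℕ} (hl : l.Prime)
    (hgood : W.IsGoodPrimeFor l) : W.apOfModel l ^ 2 ≤ 4 * (l : ℤ) := by
  have : Fact l.Prime := ⟨hl⟩
  have := isElliptic_reductionMod W hgood
  have h := Frob.trace_sq_le (W.reductionMod l).toAffine
  rwa [ZMod.card] at h

theorem abs_apOfModel_le (W : WeierstrassCurve ℤ) {l : ℕ} (hl : l.Prime)
    (hgood : W.IsGoodPrimeFor l) : (W.apOfModel l).natAbs ^ 2 ≤ 4 * l := by
  zify
  rw [sq_abs]
  exact apOfModel_sq_le W hl hgood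

end Fermat.Agent.EC
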