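import Fermat.Agent.EC.Frob.Transfer
import Fermat.Agent.EC.Frob.Hasse
import Fermat.Prelude.Def_GaloisRep_Residual

/-!
# Characteristic polynomial of Frobenius on `E[n]`
-/

set_option autoImplicit false

open IsLocalRing Polynomial
open WeierstrassCurve.Affine (Point)
open WeierstrassCurve.Affine.Point (galoisRepModuleEnd galoisTrace)
open scoped WeierstrassCurve.Affine

namespace Fermat.Agent.EC

variable (W : WeierstrassCurve ℤ) {l : ℕ} {A : ValuationSubring (AlgebraicClosure ℚ)}

theorem exists_frob_specialFibre (hl : l.Prime) (hA : A.LiesOverPrime l)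
    (hgood : W.IsGoodPrimeFor l) :
    ∃ π : (specialFibre W A).Point →+ (specialFibre W A).Point,
      (∀ (u v : ResidueField A) (h : (specialFibre W A).Nonsingular u v)
        (h' : (specialFibre W A).Nonsingular (u ^ l) (v ^ l)),
          π (.some u v h) = .some _ _ h') ∧
      (∀ P, π (π P) - W.apOfModel l • π P + (l : ℤ) • P = 0) ∧
      ∀ c : ℤ, ¬ (l : ℤ) ∣ c → (Nat.card (π - c • AddMonoidHom.id _).ker : ℤ) =
        c ^ 2 - W.apOfModel l * c + l := by
  have : Fact l.Prime := ⟨hl⟩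
  have := charP_residueField A hl hA
  let := ZMod.algebra (ResidueField A) l
  have := isAlgClosed_residueField A
  have := isElliptic_reductionMod W hgood
  suffices key : ∀ V : WeierstrassCurve.Affine (ResidueField A),
      V = (W.reductionMod l).toAffine⁄(ResidueField A) →
      ∃ π : V.Point →+ V.Point,
        (∀ (u v : ResidueField A) (h : V.Nonsingular u v)
          (h' : V.Nonsingular (u ^ l) (v ^ l)), π (.some u v h) = .some _ _ h') ∧
        (∀ P, π (π P) - W.apOfModel l • π P + (l : ℤ) • P = 0) ∧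
        ∀ c : ℤ, ¬ (l : ℤ) ∣ c → (Nat.card (π - c • AddMonoidHom.id _).ker : ℤ) =
          c ^ 2 - W.apOfModel l * c + l by
    refine key _ ?_
    change W.map (Int.castRingHom (ResidueField A)) =
      (W.map (Int.castRingHom (ZMod l))).map (algebraMap (ZMod l) (ResidueField A))
    rw [WeierstrassCurve.map_map]
    congr 1
    exact RingHom.ext_int _ _
  rintro V rfl
  refine ⟨Frob.frobEnd (W.reductionMod l).toAffine, fun u v h h' => ?_, fun P => ?_, fun c hc => ?_⟩
  · obtain ⟨h'', e⟩ := Frob.frobEnd_some (W.reductionMod l).toAffine h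
    refine e.trans ?_
    simp only [ZMod.card]
  · have h := Frob.frob_sq_sub_trace (W.reductionMod l).toAffine P
    rw [ZMod.card] at h
    exact h
  · have h := Frob.natCard_ker_frob_sub (W.reductionMod l).toAffine (Ω := ResidueField A) c
      (by rwa [Ne, ZMod.intCast_zmod_eq_zero_iff_dvd])
    rw [ZMod.card] at h
    exact h

/-- Frobenius on `E[n]` at a good prime `l ∤ n` has characteristic polynomial `X² - a_l X + l`. -/
theorem charpoly_frobenius_torsion (hl : l.Prime) (hA : A.LiesOverPrime l)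
    (hgood : W.IsGoodPrimeFor l) {σ : AlgebraicClosure ℚ ≃ₐ[ℚ] AlgebraicClosure ℚ}
    (hσ : A.IsFrobeniusAt σ l) {n : ℕ} (hn : 1 < n) (hln : ¬ l ∣ n)
    [Module.Free (ZMod n) (Submodule.torsionBy ℤ
      ((W.map (Int.castRingHom ℚ))⁄(AlgebraicClosure ℚ)).Point n)]
    [Module.Finite (ZMod n) (Submodule.torsionBy ℤ
      ((W.map (Int.castRingHom ℚ))⁄(AlgebraicClosure ℚ)).Point n)] :
    LinearMap.charpoly
        (galoisRepModuleEnd (K := AlgebraicClosure ℚ) ℚ (W.map (Int.castRingHom ℚ)) n σ) =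
        X ^ 2 - C (W.apOfModel l : ZMod n) * X + C (l : ZMod n) ∧
      LinearMap.trace (ZMod n) _
        (galoisRepModuleEnd (K := AlgebraicClosure ℚ) ℚ (W.map (Int.castRingHom ℚ)) n σ) =
        (W.apOfModel l : ZMod n) ∧
      LinearMap.det
        (galoisRepModuleEnd (K := AlgebraicClosure ℚ) ℚ (W.map (Int.castRingHom ℚ)) n σ) =
        (l : ZMod n) := by
  obtain ⟨π, hπ, hrel, hker⟩ := exists_frob_specialFibre W hl hA hgood
  refine Frob.charpoly_galois_of_core W A hl hA hgood σ π (fun P => ?_) hrel hker hn hln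
  rcases red_smul_of_isFrobeniusAt W A hl hA hgood hσ P with ⟨h1, h2⟩ | ⟨u, v, h, h', h1, h2⟩
  · rw [h1, h2, map_zero]
  · rw [h1, h2, hπ u v h h']

/-- `det` of Frobenius on `E[n]` is `l`. -/
theorem det_frobenius_torsion (hl : l.Prime) (hA : A.LiesOverPrime l)
    (hgood : W.IsGoodPrimeFor l) {σ : AlgebraicClosure ℚ ≃ₐ[ℚ] AlgebraicClosure ℚ}
    (hσ : A.IsFrobeniusAt σ l) {n : ℕ} (hn : 1 < n) (hln : ¬ l ∣ n) :
    LinearMap.det
      (galoisRepModuleEnd (K := AlgebraicClosure ℚ) ℚ (W.map (Int.castRingHom ℚ)) n σ) =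
      (l : ZMod n) := by
  have := Frob.isElliptic_map_rat W hgood
  have : Fact (1 < n) := ⟨hn⟩
  have hn0 : (n : AlgebraicClosure ℚ) ≠ 0 := Nat.cast_ne_zero.mpr (by omega)
  have := free_torsionBy (F := AlgebraicClosure ℚ) (W.map (Int.castRingHom ℚ)) (n := n) hn0
  have : Module.Finite (ZMod n) (Submodule.torsionBy ℤ
      ((W.map (Int.castRingHom ℚ))⁄(AlgebraicClosure ℚ)).Point n) :=
    Module.Finite.of_basis (nonempty_torsionBy_basis (F := AlgebraicClosure ℚ)
      (W.map (Int.castRingHom ℚ)) (n := n) hn0).some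
  exact (charpoly_frobenius_torsion W hl hA hgood hσ hn hln).2.2

/-- `trace` of Frobenius on `E[n]` is `a_l`. -/
theorem galoisTrace_frobenius (hl : l.Prime) (hA : A.LiesOverPrime l)
    (hgood : W.IsGoodPrimeFor l) {σ : AlgebraicClosure ℚ ≃ₐ[ℚ] AlgebraicClosure ℚ}
    (hσ : A.IsFrobeniusAt σ l) {n : ℕ} (hn : 1 < n) (hln : ¬ l ∣ n) :
    galoisTrace (K := AlgebraicClosure ℚ) ℚ (W.map (Int.castRingHom ℚ)) n σ =
      (W.apOfModel l : ZMod n) := by
  have := Frob.isElliptic_map_rat W hgood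
  have : Fact (1 < n) := ⟨hn⟩
  have hn0 : (n : AlgebraicClosure ℚ) ≠ 0 := Nat.cast_ne_zero.mpr (by omega)
  have := free_torsionBy (F := AlgebraicClosure ℚ) (W.map (Int.castRingHom ℚ)) (n := n) hn0
  have : Module.Finite (ZMod n) (Submodule.torsionBy ℤ
      ((W.map (Int.castRingHom ℚ))⁄(AlgebraicClosure ℚ)).Point n) :=
    Module.Finite.of_basis (nonempty_torsionBy_basis (F := AlgebraicClosure ℚ)
      (W.map (Int.castRingHom ℚ)) (n := n) hn0).some
  exact (charpoly_frobenius_torsion W hl hA hgood hσ hn hln).2.1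

/-- The mod `p` characteristic polynomial of Frobenius at a good prime `l ≠ p`. -/
theorem charpoly_frobenius (hl : l.Prime) (hA : A.LiesOverPrime l)
    (hgood : W.IsGoodPrimeFor l) {σ : AlgebraicClosure ℚ ≃ₐ[ℚ] AlgebraicClosure ℚ}
    (hσ : A.IsFrobeniusAt σ l) {p : ℕ} [Fact p.Prime] (hlp : l ≠ p)
    [Module.Finite (ZMod p) (Submodule.torsionBy ℤ
      ((W.map (Int.castRingHom ℚ))⁄(AlgebraicClosure ℚ)).Point p)] :
    LinearMap.charpoly
        (galoisRepModuleEnd (K := AlgebraicClosure ℚ) ℚ (W.map (Int.castRingHom ℚ)) p σ) =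
        X ^ 2 - C (W.apOfModel l : ZMod p) * X + C (l : ZMod p) :=
  have hp : p.Prime := Fact.out
  (charpoly_frobenius_torsion W hl hA hgood hσ hp.one_lt
    fun h => hlp ((Nat.prime_dvd_prime_iff_eq hl hp).mp h)).1

/-- The residual representation version. -/
theorem charpoly_residualGaloisRepOf (hl : l.Prime) (hA : A.LiesOverPrime l)
    (hgood : W.IsGoodPrimeFor l) {σ : AlgebraicClosure ℚ ≃ₐ[ℚ] AlgebraicClosure ℚ}
    (hσ : A.IsFrobeniusAt σ l) {p : ℕ} [Fact p.Prime] (hlp : l ≠ p) (hcard) (hker) :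
    LinearMap.charpoly
        (((W.map (Int.castRingHom ℚ)).residualGaloisRepOf p hcard hker).ρ σ) =
        X ^ 2 - C (W.apOfModel l : ZMod p) * X + C (l : ZMod p) :=
  have : Module.Finite (ZMod p) (Submodule.torsionBy ℤ
      ((W.map (Int.castRingHom ℚ))⁄(AlgebraicClosure ℚ)).Point p) :=
    ResidualGaloisRep.instModuleFinite
      ((W.map (Int.castRingHom ℚ)).residualGaloisRepOf p hcard hker)
  charpoly_frobenius W hl hA hgood hσ hlp

end Fermat.Agent.EC
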