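import Mathlib.AlgebraicGeometry.EllipticCurve.Affine.AddSubMap
import Mathlib.Tactic.LinearCombination
import Mathlib.Tactic.FieldSimp

/-!
The addition-and-subtraction map on x-coordinates computes
`(x(P+Q) * x(P-Q) : x(P+Q) + x(P-Q) : 1)`.
-/

namespace Fermat.Agent.EC.Frob

open WeierstrassCurve WeierstrassCurve.Affine WeierstrassCurve.Affine.Point MvPolynomial

variable {F : Type*} [Field F] (W : WeierstrassCurve F)

/-- Evaluation of the addition-and-subtraction map. -/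
noncomputable def addSubEval (v : Fin 3 → F) : Fin 3 → F :=
  fun i => (W.addSubMap i).eval v

lemma addSubEval_eq (s t u : F) :
    addSubEval W ![s, t, u] =
      ![s ^ 2 - W.b₄ * s * u - W.b₆ * t * u - W.b₈ * u ^ 2,
        2 * t * s + W.b₂ * s * u + W.b₄ * t * u + W.b₆ * u ^ 2,
        t ^ 2 - 4 * s * u] := by
  ext i
  fin_cases i <;> simp [addSubEval, addSubMap]

variable [DecidableEq F]

lemma addSubEval_X_ne {x₁ x₂ y₁ y₂ : F} (h₁ : W.toAffine.Nonsingular x₁ y₁)
    (h₂ : W.toAffine.Nonsingular x₂ y₂) (hx : x₁ ≠ x₂) :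
    ∃ c : F, c ≠ 0 ∧ addSubEval W (Point.sym2x (.some x₁ y₁ h₁) (.some x₂ y₂ h₂)) =
      c • Point.sym2x (Point.some x₁ y₁ h₁ + .some x₂ y₂ h₂)
        (Point.some x₁ y₁ h₁ - .some x₂ y₂ h₂) := by
  refine ⟨(x₁ - x₂) ^ 2, pow_ne_zero 2 (sub_ne_zero.mpr hx), ?_⟩
  have e₁ := (equation_iff _ _).mp h₁.1
  have e₂ := (equation_iff _ _).mp h₂.1
  have hd : x₁ - x₂ ≠ 0 := sub_ne_zero.mpr hx
  rw [sub_eq_add_neg (Point.some x₁ y₁ h₁), neg_some, add_of_X_ne hx, add_of_X_ne hx]
  simp only [sym2x_some_some, addSubEval_eq, slope_of_X_ne hx, addX, negY]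
  ext i
  fin_cases i
  · simp only [Pi.smul_apply, smul_eq_mul, b₂, b₄, b₆, b₈, Fin.zero_eta,
      Matrix.cons_val_zero]
    field_simp
    grind
  · simp only [Pi.smul_apply, smul_eq_mul, b₂, b₄, b₆, Fin.mk_one,
      Matrix.cons_val_one, Matrix.cons_val_zero]
    field_simp
    grind
  · simp
    ring

variable [W.IsElliptic]

lemma addSubEval_ne_zero {v : Fin 3 → F} (hv : v ≠ 0) : addSubEval W v ≠ 0 :=
  WeierstrassCurve.addSubMap_ne_zero W hv

lemma addSubEval_self {x y : F} (h : W.toAffine.Nonsingular x y) :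
    ∃ c : F, c ≠ 0 ∧ addSubEval W (Point.sym2x (.some x y h) (.some x y h)) =
      c • Point.sym2x (Point.some x y h + .some x y h) 0 := by
  have e := (equation_iff _ _).mp h.1
  have hne := addSubEval_ne_zero W (sym2x_ne_zero (Point.some x y h) (.some x y h))
  rw [sym2x_some_some, addSubEval_eq] at hne ⊢
  by_cases hy : y = W.toAffine.negY x y
  · rw [add_self_of_Y_eq hy, sym2x_zero_zero]
    rw [negY] at hy
    have h1 : 2 * (x + x) * (x * x) + W.b₂ * (x * x) * 1 + W.b₄ * (x + x) * 1 + W.b₆ * 1 ^ 2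
        = 0 := by
      simp only [b₂, b₄, b₆]
      grind
    have h2 : (x + x) ^ 2 - 4 * (x * x) * 1 = 0 := by ring
    rw [h1, h2] at hne ⊢
    refine ⟨(x * x) ^ 2 - W.b₄ * (x * x) * 1 - W.b₆ * (x + x) * 1 - W.b₈ * 1 ^ 2,
      fun h0 => hne ?_, ?_⟩
    · rw [h0]
      ext i
      fin_cases i <;> simp
    · ext i
      fin_cases i <;> simp
  · refine ⟨(y - W.toAffine.negY x y) ^ 2, pow_ne_zero 2 (sub_ne_zero.mpr hy), ?_⟩
    rw [add_self_of_Y_ne hy, sym2x_some_zero]
    set L := W.toAffine.slope x x y y with hLdef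
    have hd : y - W.toAffine.negY x y ≠ 0 := sub_ne_zero.mpr hy
    have hL : L * (y - W.toAffine.negY x y) =
        3 * x ^ 2 + 2 * W.a₂ * x + W.a₄ - W.a₁ * y := by
      rw [hLdef, slope_of_Y_ne rfl hy, div_mul_cancel₀ _ hd]
    simp only [addX, negY] at hd hL ⊢
    ext i
    fin_cases i
    · simp only [Pi.smul_apply, smul_eq_mul, b₂, b₄, b₆, b₈, Fin.zero_eta,
        Matrix.cons_val_zero]
      linear_combination (W.a₁ ^ 2 + 4 * W.a₂ + 8 * x) * e -
        (L * (y - (-y - W.a₁ * x - W.a₃)) + (3 * x ^ 2 + 2 * W.a₂ * x + W.a₄ - W.a₁ * y)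
          + W.a₁ * (y - (-y - W.a₁ * x - W.a₃))) * hL
    · simp only [Pi.smul_apply, smul_eq_mul, b₂, b₄, b₆, Fin.mk_one,
        Matrix.cons_val_one, Matrix.cons_val_zero]
      linear_combination (-4 : F) * e
    · simp
      ring

/-- The addition-and-subtraction map does what it is claimed to do. -/
theorem addSubEval_sym2x (P Q : W.toAffine.Point) :
    ∃ c : F, c ≠ 0 ∧ addSubEval W (P.sym2x Q) = c • (P + Q).sym2x (P - Q) := by
  rcases P with _ | ⟨x₁, y₁, h₁⟩ <;> rcases Q with _ | ⟨x₂, y₂, h₂⟩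
  · refine ⟨1, one_ne_zero, ?_⟩
    rw [← zero_def]
    simp only [sym2x_zero_zero, addSubEval_eq, add_zero, sub_zero, one_smul]
    ext i
    fin_cases i <;> simp
  · refine ⟨1, one_ne_zero, ?_⟩
    rw [← zero_def]
    simp only [zero_add, zero_sub, sym2x_neg_right, sym2x_zero_some, sym2x_some_some, one_smul,
      addSubEval_eq]
    ext i
    fin_cases i <;> simp <;> ring
  · refine ⟨1, one_ne_zero, ?_⟩
    rw [← zero_def]
    simp only [add_zero, sub_zero, sym2x_some_zero, sym2x_some_some, one_smul, addSubEval_eq]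
    ext i
    fin_cases i <;> simp <;> ring
  · by_cases hx : x₁ = x₂
    · rcases (X_eq_iff (h₁ := h₁) (h₂ := h₂)).mp hx with h | h
      · rw [← h, sub_self]
        exact addSubEval_self W h₁
      · rw [eq_neg_iff_add_eq_zero.mp h]
        have hQ : Point.some x₂ y₂ h₂ = -Point.some x₁ y₁ h₁ := by rw [h, neg_neg]
        rw [hQ, sub_neg_eq_add, sym2x_neg_right, sym2x_comm (0 : W.toAffine.Point)]
        exact addSubEval_self W h₁
    · exact addSubEval_X_ne W h₁ h₂ hx

end Fermat.Agent.EC.Frob
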