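import Fermat.Agent.EC.Frob.Operators
import Fermat.Prelude.Def_FLTPrelim_Modularity
import Mathlib.FieldTheory.RatFunc.AsPolynomial
import Mathlib.FieldTheory.IsAlgClosed.AlgebraicClosure
import Mathlib.GroupTheory.Coset.Card

/-!
The characteristic polynomial of Frobenius of an elliptic curve over a finite field, the Hasse
bound, kernels of separable polynomials in Frobenius, and the scalar case.
-/

open Polynomial WeierstrassCurve.Affine
open scoped Polynomial.Bivariate WeierstrassCurve.Affine

namespace Fermat.Agent.EC.Frob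

universe u v

variable {F : Type u} [Field F] [Fintype F] (W : WeierstrassCurve.Affine F) [W.IsElliptic]
variable {Ω : Type v} [Field Ω] [Algebra F Ω] [DecidableEq Ω] [IsAlgClosed Ω]

section Transfer

/-- An algebraically closed extension of `Ω` with an element transcendental over `F`. -/
private abbrev BigField (Ω : Type v) [Field Ω] := AlgebraicClosure (RatFunc Ω)

omit [Fintype F] [DecidableEq Ω] [IsAlgClosed Ω] in
private lemma exists_transcendental : ∃ g : BigField Ω, Transcendental F g := by
  refine ⟨algebraMap (RatFunc Ω) (BigField Ω) RatFunc.X, transcendental_iff.mpr fun p hp => ?_⟩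
  rw [Polynomial.aeval_algebraMap_apply, map_eq_zero, ← RatFunc.algebraMap_X,
    Polynomial.aeval_algebraMap_apply, IsFractionRing.to_map_eq_zero_iff] at hp
  rw [Polynomial.aeval_X_left_eq_map, Polynomial.map_eq_zero] at hp
  exact hp

private noncomputable def toBig : Ω →ₐ[F] BigField Ω := IsScalarTower.toAlgHom F Ω (BigField Ω)

private lemma algPts_le_range_toBig [DecidableEq (BigField Ω)] :
    algPts W (L := BigField Ω) ≤ (Point.map (W' := W) (toBig (F := F) (Ω := Ω))).range := by
  intro Q hQ
  rcases Q with _ | ⟨x, y, h⟩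
  · exact zero_mem _
  · have hx := (mem_algPts_some W h).mp hQ
    obtain ⟨P, hP⟩ := hQ
    let _ : DecidableEq (algebraicClosure F (BigField Ω)) := Classical.decEq _
    rcases P with _ | ⟨a, b, hab⟩
    · simp [← Point.zero_def] at hP
    rw [Point.map_some, Point.some.injEq] at hP
    have key : ∀ z : BigField Ω, IsAlgebraic F z → z ∈ (algebraMap Ω (BigField Ω)).range :=
      fun z hz => minpoly.mem_range_of_degree_eq_one Ω z
        (IsAlgClosed.degree_eq_one_of_irreducible Ω
          (minpoly.irreducible (hz.isIntegral.tower_top)))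
    obtain ⟨a', ha'⟩ := key x hx
    obtain ⟨b', hb'⟩ := key y (hP.2 ▸ mem_algebraicClosure_iff.mp b.2)
    have hn : (W⁄Ω).Nonsingular a' b' :=
      (W.baseChange_nonsingular (f := toBig (F := F) (Ω := Ω))
        (toBig (F := F) (Ω := Ω)).injective a' b').mp
          (by simpa [toBig, ha', hb'] using! h)
    exact ⟨.some _ _ hn, by simp [Point.map_some, toBig, ha', hb']⟩

variable [DecidableEq (FnField W)]

/-- Separable `c(π)`: its kernel has order `deg c`, and on the big field it is surjective. -/
private theorem separable_op [DecidableEq (BigField Ω)] (p : ℕ) [Fact p.Prime] [CharP F p]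
    {c : ℤ[X]} (hc : genOp W c ∉ powPts W p) :
    Nat.card (op W (L := Ω) c).ker = deg W c ∧
      Function.Surjective (op W (L := BigField Ω) c) ∧
      Nat.card (op W (L := BigField Ω) c).ker = deg W c := by
  classical
  have hd : 0 < deg W c := Nat.pos_of_ne_zero fun h0 =>
    hc (range_ofId_le_powPts W p (genOp_mem_range_of_deg_eq_zero W h0))
  have hne : genOp W c ≠ -genOp W c := by
    intro h
    have h2 : genOp W (c + c) = 0 := by rw [genOp_add]; nth_rw 1 [h]; rw [neg_add_cancel]
    have h3 : deg W (c + c) = 0 := deg_eq W (h2 ▸ isXDeg_zero)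
    have h4 := deg_parallelogram W c c
    rw [h3, sub_self, deg_zero] at h4
    omega
  obtain ⟨A, B, hp, hAB⟩ := isXDeg_deg W c
  rw [← hAB] at hd
  revert hp hne hc
  generalize hP : genOp W c = P
  intro hc hne hp
  rcases P with _ | ⟨X₀, Y₀, h₀⟩
  · exact absurd rfl hne
  have hsep : derivative A * B - A * derivative B ≠ 0 := by
    intro h
    obtain ⟨hA, hB⟩ := algebraMap_mem_powField_of_derivative W p hp.1 h
    have he := hp.2
    simp only [Point.xRep_some, Matrix.cons_val_one, Matrix.cons_val_zero, mul_one] at he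
    have hB0 : algebraMap F[X] (FnField W) B ≠ 0 := by
      intro h0
      rw [h0, zero_mul, map_eq_zero_iff _ (algebraMap_poly_injective W)] at he
      rw [map_eq_zero_iff _ (algebraMap_poly_injective W)] at h0
      simp [he, h0] at hd
    refine hc (mem_powPts_of_x_mem W p h₀ (fun hy => hne ?_) ?_)
    · simp only [Point.neg_some, Point.some.injEq, true_and]
      exact hy
    · rw [show X₀ = algebraMap F[X] (FnField W) A / algebraMap F[X] (FnField W) B by
        rw [he, mul_div_cancel_left₀ _ hB0]]
      exact div_mem hA hB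
  obtain ⟨g, hg⟩ := exists_transcendental (F := F) (Ω := Ω)
  obtain ⟨hsurj, hcard⟩ := surjective_and_natCard_ker W hne hp hd hsep hg
    (op W (L := BigField Ω) c)
    (fun x y h hx => (op_eq_evalPt W c h hx).trans (by rw [← hP]; rfl))
    (fun Q hQ => op_mem_algPts W c hQ)
  rw [hAB] at hcard
  refine ⟨?_, hsurj, hcard⟩
  rw [← hcard]
  have hinj : Function.Injective (Point.map (W' := W) (toBig (F := F) (Ω := Ω))) :=
    Point.map_injective _
  refine Nat.card_congr (Equiv.ofBijective (fun Q => ⟨Point.map (W' := W)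
    (toBig (F := F) (Ω := Ω)) Q.1, ?_⟩) ⟨?_, ?_⟩)
  · rw [AddMonoidHom.mem_ker]
    exact ((map_op W _ c Q.1).symm.trans (by rw [AddMonoidHom.mem_ker.mp Q.2, map_zero]))
  · intro Q Q' h
    exact Subtype.ext (hinj (congrArg Subtype.val h))
  · rintro ⟨Q, hQ⟩
    rw [AddMonoidHom.mem_ker] at hQ
    obtain ⟨T, hT⟩ : Q ∈ (Point.map (W' := W) (toBig (F := F) (Ω := Ω))).range := by
      refine algPts_le_range_toBig W (by_contra fun hg' => ?_)
      rcases Q with _ | ⟨x, y, h⟩
      · exact hg' (zero_mem _)
      · have hx := (not_mem_algPts_some W h).mp hg'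
        obtain ⟨x', y', h', he, -⟩ := evalPt_some W hp h hx
        rw [op_eq_evalPt W c h hx, show op W c (genPt W) = genOp W c from rfl, hP, he] at hQ
        exact Point.some_ne_zero h' hQ
    refine ⟨⟨T, AddMonoidHom.mem_ker.mpr (hinj ?_)⟩, Subtype.ext hT⟩
    rw [map_zero]
    exact (map_op W _ c T).trans (hT ▸ hQ)

end Transfer

section Main

omit [IsAlgClosed Ω] [DecidableEq Ω] [W.IsElliptic] in
private lemma mem_range_of_pow_card_eq {x : Ω} (hx : x ^ Fintype.card F = x) :
    ∃ a : F, algebraMap F Ω a = x := by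
  classical
  by_contra hne
  push Not at hne
  have h := card_le_degree_of_subset_roots
    (p := (X ^ Fintype.card F - X : Ω[X]))
    (Z := insert x (Finset.univ.image (algebraMap F Ω))) fun z hz => by
      rw [mem_roots (FiniteField.X_pow_card_sub_X_ne_zero Ω Fintype.one_lt_card)]
      simp only [Finset.insert_val, Multiset.mem_ndinsert, Finset.mem_val, Finset.mem_image,
        Finset.mem_univ, true_and] at hz
      rcases hz with rfl | ⟨a, rfl⟩
      · simp [hx, sub_eq_zero]
      · simp [← map_pow, FiniteField.pow_card]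
  rw [Finset.card_insert_of_notMem (by simpa using hne),
    Finset.card_image_of_injective _ (algebraMap F Ω).injective, Finset.card_univ,
    FiniteField.X_pow_card_sub_X_natDegree_eq Ω Fintype.one_lt_card] at h
  omega

omit [IsAlgClosed Ω] in
private lemma natCard_ker_frob_sub_one [DecidableEq F] :
    Nat.card (op W (L := Ω) (X - 1)).ker = W.card := by
  refine (Nat.card_congr (Equiv.ofBijective (α := (W⁄F).Point)
    (β := (op W (L := Ω) (X - 1)).ker) (fun P =>
    ⟨Point.map (W' := W) (Algebra.ofId F Ω) P, ?_⟩) ⟨?_, ?_⟩)).symm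
  · rw [AddMonoidHom.mem_ker, op_sub, op_X, op_one, sub_eq_zero]
    rcases P with _ | ⟨x, y, h⟩
    · exact frobEnd_zero W
    · rw [Point.map_some]
      obtain ⟨h', he⟩ := frobEnd_some W ((W.baseChange_nonsingular
        (f := Algebra.ofId F Ω) (Algebra.ofId F Ω).injective x y).mpr h)
      rw [he]
      simp [Algebra.ofId_apply, ← map_pow, FiniteField.pow_card]
  · intro P P' h
    exact Point.map_injective _ (congrArg Subtype.val h)
  · rintro ⟨P, hP⟩
    rw [AddMonoidHom.mem_ker, op_sub, op_X, op_one, sub_eq_zero] at hP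
    rcases P with _ | ⟨x, y, h⟩
    · exact ⟨0, Subtype.ext (map_zero _)⟩
    · obtain ⟨h', he⟩ := frobEnd_some W h
      rw [he, Point.some.injEq] at hP
      obtain ⟨a, rfl⟩ := mem_range_of_pow_card_eq hP.1
      obtain ⟨b, rfl⟩ := mem_range_of_pow_card_eq hP.2
      exact ⟨.some a b ((W.baseChange_nonsingular (f := Algebra.ofId F Ω)
        (Algebra.ofId F Ω).injective a b).mp h), by simp [Point.map_some, Algebra.ofId_apply]⟩

private lemma natCard_ker_comp {G : Type*} [AddCommGroup G] (f g : G →+ G)
    (hg : Function.Surjective g) :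
    Nat.card (f.comp g).ker = Nat.card f.ker * Nat.card g.ker := by
  let φ : (f.comp g).ker →+ f.ker :=
    { toFun := fun x => ⟨g x.1, x.2⟩
      map_zero' := Subtype.ext (map_zero g)
      map_add' := fun x y => Subtype.ext (map_add g _ _) }
  have hφ : Function.Surjective φ := fun y => by
    obtain ⟨x, hx⟩ := hg y.1
    exact ⟨⟨x, by rw [AddMonoidHom.mem_ker, AddMonoidHom.comp_apply, hx]; exact y.2⟩,
      Subtype.ext hx⟩
  have hker : Nat.card φ.ker = Nat.card g.ker :=
    Nat.card_congr
      { toFun := fun x => ⟨x.1.1, congrArg Subtype.val x.2⟩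
        invFun := fun x => ⟨⟨x.1, by
          rw [AddMonoidHom.mem_ker, AddMonoidHom.comp_apply, AddMonoidHom.mem_ker.mp x.2,
            map_zero]⟩, Subtype.ext x.2⟩
        left_inv := fun _ => rfl
        right_inv := fun _ => rfl }
  rw [AddSubgroup.card_eq_card_quotient_mul_card_addSubgroup φ.ker, hker,
    Nat.card_congr (QuotientAddGroup.quotientKerEquivOfSurjective φ hφ).toEquiv]

private lemma quadratic₃ {A : Type*} [AddCommGroup A] (h : A → ℤ)
    (hpar : ∀ P Q, h (P + Q) + h (P - Q) = 2 * h P + 2 * h Q) (P Q R : A) :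
    h (P + Q + R) = h (P + Q) + h (P + R) + h (Q + R) - h P - h Q - h R := by
  have h1 := hpar (P + R) Q
  have h2 := hpar (P - Q) R
  have h3 := hpar P (Q + R)
  have h4 := hpar P Q
  rw [show P + R + Q = P + Q + R by abel] at h1
  rw [← add_assoc P Q R] at h3
  rw [show P - Q + R = P + R - Q by abel, show P - Q - R = P - (Q + R) by abel] at h2
  linarith

variable [DecidableEq (FnField W)]

private lemma not_mem_powPts_of_coeff (p : ℕ) [Fact p.Prime] [CharP F p] {c : ℤ[X]}
    (hc : c.coeff 0 • genPt W ∉ powPts W p) : genOp W c ∉ powPts W p := by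
  intro h
  apply hc
  conv at h => arg 2; rw [← X_mul_divX_add c]
  rw [genOp_add, genOp, genOp, op_mul, op_X, op_C] at h
  exact (AddSubgroup.add_mem_cancel_left _ (frobEnd_mem_powPts W p _)).mp h

/-- `a = q + 1 - deg (π - 1)` -/
private noncomputable def trc : ℤ := Fintype.card F + 1 - (deg W (X - 1) : ℤ)

private lemma deg_linear (m n : ℤ) :
    (deg W (C m * X + C n) : ℤ) =
      Fintype.card F * m ^ 2 + trc W * m * n + n ^ 2 := by
  have hpar : ∀ c d : ℤ[X], (deg W (c + d) : ℤ) + deg W (c - d) = 2 * deg W c + 2 * deg W d :=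
    deg_parallelogram W
  have hq := parallelogram_quadratic (fun c => (deg W c : ℤ)) hpar X 1 m n
  have hX : deg W X = Fintype.card F := by
    have := deg_X_mul W 1
    rwa [mul_one, deg_one, mul_one] at this
  have h1 := hpar X 1
  simp only [zsmul_eq_mul, mul_one, ← eq_intCast C] at hq
  rw [hq, hX, deg_one]
  rw [hX, deg_one] at h1
  unfold trc
  push_cast at h1 ⊢
  linear_combination m * n * h1

include Ω in
omit [DecidableEq Ω] in
private lemma deg_relation : deg W (X ^ 2 - C (trc W) * X + C (Fintype.card F : ℤ)) = 0 := by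
  classical
  obtain ⟨p, hp⟩ := CharP.exists F
  haveI : Fact p.Prime := ⟨CharP.char_is_prime F p⟩
  set q : ℤ := (Fintype.card F : ℤ) with hq
  set a := trc W with ha
  have hpar : ∀ c d : ℤ[X], (deg W (c + d) : ℤ) + deg W (c - d) = 2 * deg W c + 2 * deg W d :=
    deg_parallelogram W
  have hne : ∀ c : ℤ[X], c.coeff 0 = 1 ∨ c.coeff 0 = -1 → genOp W c ∉ powPts W p := by
    intro c hc
    refine not_mem_powPts_of_coeff W p ?_
    rcases hc with hc | hc <;> rw [hc] <;> simp [genPt_not_mem_powPts W p]
  have hsq : (deg W (X ^ 2 - 1) : ℤ) = (q + 1) ^ 2 - a ^ 2 := by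
    obtain ⟨-, -, k1⟩ := separable_op W (Ω := Ω) p (hne (X - 1) (Or.inr (by simp)))
    obtain ⟨-, s2, k2⟩ := separable_op W (Ω := Ω) p (hne (X + 1) (Or.inl (by simp)))
    obtain ⟨-, -, k3⟩ := separable_op W (Ω := Ω) p (hne (X ^ 2 - 1) (Or.inr (by simp)))
    have hcomp : op W (L := BigField Ω) (X ^ 2 - 1) = (op W (X - 1)).comp (op W (X + 1)) :=
      AddMonoidHom.ext fun P => by
        rw [AddMonoidHom.comp_apply, ← op_mul]
        congr 2
        ring
    rw [hcomp, natCard_ker_comp _ _ s2, k1, k2] at k3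
    have h1 := deg_linear W 1 (-1)
    have h2 := deg_linear W 1 1
    simp only [map_neg, map_one, one_mul, ← sub_eq_add_neg] at h1 h2
    rw [← k3]
    push_cast
    rw [h1, h2]
    ring
  have hXX : (deg W (X ^ 2) : ℤ) = q ^ 2 := by
    have h1 := deg_X_mul W 1
    have h2 := deg_X_mul W (X * 1)
    rw [h1, deg_one, mul_one, ← mul_assoc, mul_one, ← sq] at h2
    rw [h2, hq]; push_cast; ring
  have hXmul : ∀ c : ℤ[X], (deg W (X * c) : ℤ) = q * deg W c := fun c => by
    rw [deg_X_mul]; push_cast; ring
  have hP := parallelogram_quadratic (fun c => (deg W c : ℤ)) hpar (X ^ 2) 1 1 q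
  have h12 := hpar (X ^ 2) 1
  simp only [one_smul, zsmul_eq_mul, mul_one, ← eq_intCast C] at hP
  rw [hXX, deg_one] at hP h12
  rw [hsq] at h12
  have h3 := quadratic₃ (fun c => (deg W c : ℤ)) hpar (X ^ 2) (C (-a) * X) (C q)
  have e1 : X ^ 2 + C (-a) * X = X * (C 1 * X + C (-a)) := by simp; ring
  have hz := deg_linear W 0 q
  have hm := deg_linear W (-a) 0
  simp only [map_zero, zero_mul, zero_add, add_zero] at hz hm
  rw [e1, hXmul, deg_linear, deg_linear, hP, hXX, hm, hz] at h3
  rw [show X ^ 2 - C a * X + C q = X * (C 1 * X + C (-a)) + C q by simp; ring]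
  suffices h : (deg W (X * (C 1 * X + C (-a)) + C q) : ℤ) = 0 by exact_mod_cast h
  rw [h3]
  push_cast at h12 ⊢
  linear_combination q * h12

include Ω in
omit [DecidableEq Ω] in
private lemma trc_eq : trc W = W.traceOfFrobenius := by
  classical
  obtain ⟨p, hp⟩ := CharP.exists F
  haveI : Fact p.Prime := ⟨CharP.char_is_prime F p⟩
  have hne : genOp W (X - 1) ∉ powPts W p :=
    not_mem_powPts_of_coeff W p (by simp [genPt_not_mem_powPts W p])
  have h := (separable_op W (Ω := Ω) p hne).1
  rw [natCard_ker_frob_sub_one] at h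
  rw [trc, WeierstrassCurve.traceOfFrobenius, h, Nat.card_eq_fintype_card]

private lemma relation {L : Type v} [Field L] [Algebra F L] [DecidableEq L] [IsAlgClosed L]
    {g : L} (hg : Transcendental F g) (hR : deg W (X ^ 2 - C (trc W) * X + C (Fintype.card F : ℤ)) = 0)
    (P : (W⁄L).Point) : op W (X ^ 2 - C (trc W) * X + C (Fintype.card F : ℤ)) P = 0 := by
  classical
  set R := X ^ 2 - C (trc W) * X + C (Fintype.card F : ℤ)
  obtain ⟨T, hT⟩ := genOp_mem_range_of_deg_eq_zero W hR
  set T' := Point.map (W' := W) (Algebra.ofId F L) T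
  have hgenR : ∀ Q ∉ algPts W (L := L), op W R Q = T' := by
    rintro (_ | ⟨x, y, h⟩) hQ
    · exact absurd (zero_mem _) hQ
    · have hx := (not_mem_algPts_some W h).mp hQ
      rw [op_eq_evalPt W R h hx, show op W R (genPt W) = genOp W R from rfl, ← hT]
      exact Point.map_baseChange (tau W h.1 hx) T
  obtain ⟨y, hy⟩ := exists_equation W (L := L) g
  set G := Point.some g y (nonsingular_of_equation W hy)
  have hG : G ∉ algPts W (L := L) := (not_mem_algPts_some W _).mpr hg
  have hd2 : deg W (1 + 1) = 4 := by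
    have h4 := deg_parallelogram W 1 1
    rw [sub_self, deg_zero, deg_one] at h4
    omega
  have hGG : G + G ∉ algPts W (L := L) := by
    have e : G + G = op W (1 + 1) G := by rw [op_add, op_one]
    rw [e, op_eq_evalPt W (1 + 1) _ hg]
    obtain ⟨A, B, hp, hAB⟩ := isXDeg_deg W (1 + 1)
    rw [hd2] at hAB
    rw [genOp] at hp
    revert hp
    generalize op W (1 + 1) (genPt W) = Q
    intro hp
    rcases Q with _ | ⟨X₀, Y₀, h₀⟩
    · have he := hp.2
      simp [← Point.zero_def] at he
      have hB : B = 0 := by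
        rwa [eq_comm, map_eq_zero_iff _ (algebraMap_poly_injective W)] at he
      have hu := natDegree_eq_zero_of_isUnit (isCoprime_zero_right.mp (hB ▸ hp.1))
      simp [hB, hu] at hAB
    obtain ⟨x', y', h', he, he'⟩ := evalPt_some W hp (nonsingular_of_equation W hy) hg
    rw [he, not_mem_algPts_some]
    exact (transcendental_iff_of_aeval_eq hp.1 (by omega) he').mpr hg
  have hT0 : T' = 0 := by
    have h := hgenR _ hGG
    rw [map_add, hgenR _ hG] at h
    exact add_left_cancel (h.trans (add_zero _).symm)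
  by_cases hP : P ∈ algPts W (L := L)
  · have h := hgenR (G + P) fun h => hG (by simpa using sub_mem h hP)
    rwa [map_add, hgenR _ hG, hT0, zero_add] at h
  · rw [hgenR P hP, hT0]

private lemma genPt_zsmul_not_mem (p : ℕ) [Fact p.Prime] [CharP F p]
    (hR : genOp W (X ^ 2 - C (trc W) * X + C (Fintype.card F : ℤ)) ∈ powPts W p) {n : ℤ}
    (hn : (n : F) ≠ 0) : n • genPt W ∉ powPts W p := by
  intro h
  have hq : (Fintype.card F : ℤ) • genPt W ∈ powPts W p := by
    by_contra hq
    exact not_mem_powPts_of_coeff W p (c := X ^ 2 - C (trc W) * X + C (Fintype.card F : ℤ))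
      (by simpa using hq) hR
  obtain ⟨k, hk, hk'⟩ := FiniteField.card F p
  have hcop : IsCoprime n (Fintype.card F : ℤ) := by
    rw [hk']
    push_cast
    refine IsCoprime.pow_right ((Nat.prime_iff_prime_int.mp hk).coprime_iff_not_dvd.mpr ?_).symm
    rwa [← CharP.intCast_eq_zero_iff F p]
  obtain ⟨u, v, huv⟩ := hcop
  refine genPt_not_mem_powPts W p ?_
  have := add_mem ((powPts W p).zsmul_mem h u) ((powPts W p).zsmul_mem hq v)
  rwa [← mul_zsmul', ← mul_zsmul', mul_comm n u, mul_comm _ v, ← add_zsmul, huv, one_zsmul] at this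

omit [DecidableEq (FnField W)]

/-- Frobenius satisfies its characteristic polynomial. -/
theorem frob_sq_sub_trace (P : (W⁄Ω).Point) :
    frobEnd W (frobEnd W P) - W.traceOfFrobenius • frobEnd W P + (Fintype.card F : ℤ) • P = 0 := by
  classical
  obtain ⟨g, hg⟩ := exists_transcendental (F := F) (Ω := Ω)
  have h := relation W hg (deg_relation W (Ω := Ω)) (Point.map (W' := W) (toBig (F := F)) P)
  rw [← map_op, map_eq_zero_iff _ (Point.map_injective _)] at h
  rw [sq, op_add, op_sub, op_mul, op_mul, op_X, op_X, op_C, op_C, trc_eq W (Ω := Ω)] at h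
  exact h

/-- The kernel of `mπ + n` for `n` prime to the characteristic. -/
theorem natCard_ker_linear (m n : ℤ) (hn : (n : F) ≠ 0) :
    (Nat.card (op W (L := Ω) (C m * X + C n)).ker : ℤ) =
      Fintype.card F * m ^ 2 + W.traceOfFrobenius * m * n + n ^ 2 := by
  classical
  obtain ⟨p, hp⟩ := CharP.exists F
  haveI : Fact p.Prime := ⟨CharP.char_is_prime F p⟩
  have hR := range_ofId_le_powPts W p (genOp_mem_range_of_deg_eq_zero W (deg_relation W (Ω := Ω)))
  have hc : genOp W (C m * X + C n) ∉ powPts W p :=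
    not_mem_powPts_of_coeff W p (by simpa using genPt_zsmul_not_mem W p hR hn)
  rw [(separable_op W (Ω := Ω) p hc).1, deg_linear, trc_eq W (Ω := Ω)]

/-- The number of fixed points of `π - c`. -/
theorem natCard_ker_frob_sub (c : ℤ) (hc : (c : F) ≠ 0) :
    (Nat.card (frobEnd W (L := Ω) - c • AddMonoidHom.id _).ker : ℤ)
      = c ^ 2 - W.traceOfFrobenius * c + Fintype.card F := by
  have h := natCard_ker_linear W (Ω := Ω) 1 (-c) (by simpa using hc)
  have e : op W (L := Ω) (C 1 * X + C (-c)) =
      frobEnd W (L := Ω) - c • AddMonoidHom.id _ :=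
    AddMonoidHom.ext fun P => by
      rw [op_add, op_mul, op_C, op_C, op_X, AddMonoidHom.sub_apply, AddMonoidHom.smul_apply]
      simp [sub_eq_add_neg]
  rw [e] at h
  rw [h]
  ring

/-- `#E[n] = n²` for `n` prime to the characteristic. -/
theorem natCard_ker_zsmul (n : ℤ) (hn : (n : F) ≠ 0) :
    (Nat.card (n • AddMonoidHom.id (W⁄Ω).Point).ker : ℤ) = n ^ 2 := by
  have h := natCard_ker_linear W (Ω := Ω) 0 n hn
  have e : op W (L := Ω) (C 0 * X + C n) = n • AddMonoidHom.id (W⁄Ω).Point :=
    AddMonoidHom.ext fun P => by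
      rw [map_zero, zero_mul, zero_add, op_C, AddMonoidHom.smul_apply]
      rfl
  rw [e] at h
  rw [h]
  ring

/-- The Hasse bound. -/
theorem trace_sq_le : W.traceOfFrobenius ^ 2 ≤ 4 * (Fintype.card F : ℤ) := by
  classical
  have h := deg_linear W 2 (-trc W)
  have h0 : (0 : ℤ) ≤ deg W (C 2 * X + C (-trc W)) := Int.natCast_nonneg _
  rw [h] at h0
  rw [← trc_eq W (Ω := AlgebraicClosure F)]
  linear_combination h0

end Main

end Fermat.Agent.EC.Frob
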