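import Fermat.Agent.EC.Frob.AddSub
import Mathlib.Algebra.Polynomial.BigOperators
import Mathlib.Algebra.Polynomial.Div
import Mathlib.RingTheory.Polynomial.Basic
import Mathlib.Tactic.FinCases

/-!
The exact height on points whose x-coordinate is a rational function of one variable,
and the parallelogram law.
-/

namespace Fermat.Agent.EC.Frob

open WeierstrassCurve WeierstrassCurve.Affine WeierstrassCurve.Affine.Point
open scoped Polynomial

section Map

variable {R S : Type*} [CommRing R] [CommRing S] (W : WeierstrassCurve R) (f : R →+* S)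

lemma map_addSubMap (i : Fin 3) :
    (W.map f).addSubMap i = MvPolynomial.map f (W.addSubMap i) := by
  fin_cases i <;> simp [addSubMap, map_ofNat]

lemma map_addSubMapCoeff (ij : Fin 3 × Fin 3) :
    (W.map f).addSubMapCoeff ij = MvPolynomial.map f (W.addSubMapCoeff ij) := by
  fin_cases ij <;> simp [addSubMapCoeff, map_ofNat]

end Map

lemma eval_smul_of_isHomogeneous {R σ : Type*} [CommRing R] [Fintype σ]
    {φ : MvPolynomial σ R} {n : ℕ} (hφ : φ.IsHomogeneous n) (c : R) (v : σ → R) :
    φ.eval (c • v) = c ^ n * φ.eval v := by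
  rw [MvPolynomial.eval_eq', MvPolynomial.eval_eq', Finset.mul_sum]
  refine Finset.sum_congr rfl fun d hd => ?_
  have hd' : ∑ i, d i = n := by
    have := hφ (MvPolynomial.mem_support_iff.mp hd)
    rw [Finsupp.weight_apply, Finsupp.sum_fintype] at this
    · simpa using this
    · simp
  simp only [Pi.smul_apply, smul_eq_mul, mul_pow, Finset.prod_mul_distrib,
    Finset.prod_pow_eq_pow_sum, hd']
  ring

variable {k : Type*} [Field k]

/-- The maximum of the degrees of a triple of polynomials. -/
noncomputable def tripleDeg (s : Fin 3 → k[X]) : ℕ :=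
  max (s 0).natDegree (max (s 1).natDegree (s 2).natDegree)

lemma natDegree_le_tripleDeg (s : Fin 3 → k[X]) (i : Fin 3) :
    (s i).natDegree ≤ tripleDeg s := by
  fin_cases i <;> simp [tripleDeg]

lemma tripleDeg_le_iff (s : Fin 3 → k[X]) (n : ℕ) :
    tripleDeg s ≤ n ↔ ∀ i, (s i).natDegree ≤ n := by
  refine ⟨fun h i => (natDegree_le_tripleDeg s i).trans h, fun h => ?_⟩
  simp [tripleDeg, h]

lemma natDegree_eval₂_C_le {φ : MvPolynomial (Fin 3) k} {n : ℕ} (hφ : φ.IsHomogeneous n)
    (s : Fin 3 → k[X]) :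
    (MvPolynomial.eval₂ Polynomial.C s φ).natDegree ≤ n * tripleDeg s := by
  rw [MvPolynomial.eval₂_eq']
  refine Polynomial.natDegree_sum_le_of_forall_le _ _ fun d hd => ?_
  have hd' : ∑ i, d i = n := by
    have := hφ (MvPolynomial.mem_support_iff.mp hd)
    rw [Finsupp.weight_apply, Finsupp.sum_fintype] at this
    · simpa using this
    · simp
  refine (Polynomial.natDegree_C_mul_le _ _).trans ?_
  refine (Polynomial.natDegree_prod_le _ _).trans ?_
  rw [← hd', Finset.sum_mul]
  refine Finset.sum_le_sum fun i _ => Polynomial.natDegree_pow_le.trans ?_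
  exact Nat.mul_le_mul_left _ (natDegree_le_tripleDeg s i)

/-- A triple of polynomials generating the unit ideal. -/
def IsPrimitiveTriple (s : Fin 3 → k[X]) : Prop :=
  Ideal.span (Set.range s) = ⊤

lemma IsPrimitiveTriple.exists_bezout {s : Fin 3 → k[X]} (hs : IsPrimitiveTriple s) :
    ∃ u : Fin 3 → k[X], ∑ i, u i * s i = 1 :=
  Submodule.mem_span_range_iff_exists_fun k[X] |>.mp (Ideal.eq_top_iff_one _ |>.mp hs)

lemma isPrimitiveTriple_of_forall {s : Fin 3 → k[X]}
    (hs : ∀ π : k[X], Prime π → ¬ ∀ i, π ∣ s i) : IsPrimitiveTriple s := by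
  by_contra hne
  obtain ⟨M, hM, hle⟩ := Ideal.exists_le_maximal _ hne
  have hM0 : M ≠ ⊥ := Ring.ne_bot_of_isMaximal_of_not_isField hM (Polynomial.not_isField k)
  obtain ⟨π, rfl⟩ := (IsPrincipalIdealRing.principal M).principal
  rw [Ideal.submodule_span_eq] at hM0 hM hle
  have hπ : π ≠ 0 := by
    rintro rfl
    exact hM0 (by simp)
  refine hs π ((Ideal.span_singleton_prime hπ).mp hM.isPrime) fun i => ?_
  exact Ideal.mem_span_singleton.mp (hle (Ideal.subset_span ⟨i, rfl⟩))

lemma IsPrimitiveTriple.not_forall_dvd {s : Fin 3 → k[X]} (hs : IsPrimitiveTriple s)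
    {g : k[X]} (hg : ∀ i, g ∣ s i) : IsUnit g := by
  obtain ⟨u, hu⟩ := hs.exists_bezout
  exact isUnit_of_dvd_one (hu ▸ Finset.dvd_sum fun i _ => (hg i).mul_left _)

variable {L : Type*} [Field L] [Algebra k[X] L] [FaithfulSMul k[X] L]

lemma tripleDeg_eq_of_smul_eq {s t : Fin 3 → k[X]} (hs : IsPrimitiveTriple s)
    (ht : IsPrimitiveTriple t) {c : L}
    (h : ∀ i, algebraMap k[X] L (s i) = c * algebraMap k[X] L (t i)) :
    tripleDeg s = tripleDeg t := by
  obtain ⟨u, hu⟩ := ht.exists_bezout
  have hc : algebraMap k[X] L (∑ i, u i * s i) = c := by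
    simp only [map_sum, map_mul, h]
    calc ∑ i, algebraMap k[X] L (u i) * (c * algebraMap k[X] L (t i))
        = c * algebraMap k[X] L (∑ i, u i * t i) := by
          simp only [map_sum, map_mul, Finset.mul_sum]
          exact Finset.sum_congr rfl fun i _ => by ring
      _ = c := by rw [hu, map_one, mul_one]
  have hst : ∀ i, s i = (∑ j, u j * s j) * t i := fun i =>
    FaithfulSMul.algebraMap_injective k[X] L (by rw [map_mul, hc, h])
  have hunit : IsUnit (∑ j, u j * s j) := hs.not_forall_dvd fun i => ⟨t i, hst i⟩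
  obtain ⟨a, ha, hga⟩ := Polynomial.isUnit_iff.mp hunit
  have : ∀ i, (s i).natDegree = (t i).natDegree := fun i => by
    rw [hst i, ← hga, Polynomial.natDegree_C_mul ha.ne_zero]
  simp [tripleDeg, this]

/-- The symmetric product of two pairs. -/
noncomputable def symTriple (a b a' b' : k[X]) : Fin 3 → k[X] :=
  ![a * a', a * b' + b * a', b * b']

lemma isPrimitiveTriple_symTriple {a b a' b' : k[X]} (h : IsCoprime a b) (h' : IsCoprime a' b') :
    IsPrimitiveTriple (symTriple a b a' b') := by
  refine isPrimitiveTriple_of_forall fun π hπ hdvd => ?_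
  have h0 : π ∣ a * a' := hdvd 0
  have h1 : π ∣ a * b' + b * a' := hdvd 1
  have h2 : π ∣ b * b' := hdvd 2
  rcases hπ.dvd_or_dvd h0 with ha | ha
  · have hb : ¬ π ∣ b := fun hb => hπ.not_isUnit (h.isUnit_of_dvd' ha hb)
    have hb' := (hπ.dvd_or_dvd h2).resolve_left hb
    have hba : π ∣ b * a' := (dvd_add_right (ha.mul_right b')).mp h1
    have ha' := (hπ.dvd_or_dvd hba).resolve_left hb
    exact hπ.not_isUnit (h'.isUnit_of_dvd' ha' hb')
  · have hb : ¬ π ∣ b' := fun hb => hπ.not_isUnit (h'.isUnit_of_dvd' ha hb)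
    have hb' := (hπ.dvd_or_dvd h2).resolve_right hb
    have hab : π ∣ a * b' := (dvd_add_left (ha.mul_left b)).mp h1
    have ha' := (hπ.dvd_or_dvd hab).resolve_right hb
    exact hπ.not_isUnit (h.isUnit_of_dvd' ha' hb')

omit [Field L] [Algebra k[X] L] [FaithfulSMul k[X] L] in
lemma tripleDeg_symTriple {a b a' b' : k[X]} (h : IsCoprime a b) (h' : IsCoprime a' b') :
    tripleDeg (symTriple a b a' b') =
      max a.natDegree b.natDegree + max a'.natDegree b'.natDegree := by
  set m := max a.natDegree b.natDegree with hm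
  set m' := max a'.natDegree b'.natDegree with hm'
  refine le_antisymm ((tripleDeg_le_iff _ _).mpr fun i => ?_) ?_
  · have l1 : a.natDegree ≤ m := le_max_left ..
    have l2 : b.natDegree ≤ m := le_max_right ..
    have l3 : a'.natDegree ≤ m' := le_max_left ..
    have l4 : b'.natDegree ≤ m' := le_max_right ..
    fin_cases i
    · exact Polynomial.natDegree_mul_le.trans (Nat.add_le_add l1 l3)
    · exact (Polynomial.natDegree_add_le _ _).trans (max_le
        (Polynomial.natDegree_mul_le.trans (Nat.add_le_add l1 l4))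
        (Polynomial.natDegree_mul_le.trans (Nat.add_le_add l2 l3)))
    · exact Polynomial.natDegree_mul_le.trans (Nat.add_le_add l2 l4)
  · -- compare the coefficients in degree `m + m'`
    by_contra hlt
    push Not at hlt
    have hz : ∀ i, (symTriple a b a' b' i).coeff (m + m') = 0 := fun i =>
      Polynomial.coeff_eq_zero_of_natDegree_lt ((natDegree_le_tripleDeg _ i).trans_lt hlt)
    have c0 := hz 0
    have c1 := hz 1
    have c2 := hz 2
    simp only [symTriple, Matrix.cons_val_zero, Matrix.cons_val_one, Matrix.cons_val,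
      Polynomial.coeff_add] at c0 c1 c2
    rw [Polynomial.coeff_mul_add_eq_of_natDegree_le (le_max_left ..) (le_max_left ..)] at c0
    rw [Polynomial.coeff_mul_add_eq_of_natDegree_le (le_max_left ..) (le_max_right ..),
      Polynomial.coeff_mul_add_eq_of_natDegree_le (le_max_right ..) (le_max_left ..)] at c1
    rw [Polynomial.coeff_mul_add_eq_of_natDegree_le (le_max_right ..) (le_max_right ..)] at c2
    have key : ∀ {u v : k[X]}, IsCoprime u v →
        u.coeff (max u.natDegree v.natDegree) ≠ 0 ∨
          v.coeff (max u.natDegree v.natDegree) ≠ 0 := by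
      intro u v huv
      have hne := huv.ne_zero_or_ne_zero
      rcases le_or_gt v.natDegree u.natDegree with hle | hgt
      · rcases eq_or_ne u 0 with rfl | hu
        · rcases hne with hne | hne
          · exact absurd rfl hne
          · refine .inr ?_
            rw [max_eq_left hle, show (0 : k[X]).natDegree = v.natDegree by
              simp at hle ⊢; omega]
            exact Polynomial.leadingCoeff_ne_zero.mpr hne
        · exact .inl (by rw [max_eq_left hle]; exact Polynomial.leadingCoeff_ne_zero.mpr hu)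
      · refine .inr ?_
        rw [max_eq_right hgt.le]
        exact Polynomial.leadingCoeff_ne_zero.mpr (by rintro rfl; simp at hgt)
    have k1 := key h
    have k2 := key h'
    rw [← hm] at k1
    rw [← hm'] at k2
    grind

section Curve

variable (W : WeierstrassCurve k)

/-- The image of a triple under the addition-and-subtraction map. -/
noncomputable def addSubTriple (s : Fin 3 → k[X]) : Fin 3 → k[X] :=
  fun i => MvPolynomial.eval₂ Polynomial.C s (W.addSubMap i)

variable [W.IsElliptic]

lemma addSubTriple_condition (s : Fin 3 → k[X]) :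
    ∃ e : Fin 3 → Fin 3 → k[X], (∀ i j, (e i j).natDegree ≤ 2 * tripleDeg s) ∧
      ∀ i, ∑ j, e i j * addSubTriple W s j = s i ^ 4 := by
  let W₁ := W.map (Polynomial.C : k →+* k[X])
  refine ⟨fun i j => (MvPolynomial.C (↑W₁.Δ'⁻¹ : k[X]) * W₁.addSubMapCoeff (i, j)).eval s,
    fun i j => ?_, fun i => ?_⟩
  · simp only [W₁, map_mul, MvPolynomial.eval_C, map_addSubMapCoeff, MvPolynomial.eval_map]
    refine Polynomial.natDegree_mul_le.trans ?_
    have hu : (↑(W.map (Polynomial.C : k →+* k[X])).Δ'⁻¹ : k[X]).natDegree = 0 :=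
      Polynomial.natDegree_eq_zero_of_isUnit (Units.isUnit _)
    rw [hu, zero_add]
    exact natDegree_eval₂_C_le (W.isHomogeneous_addSubMapCoeff (i, j)) s
  · refine Eq.trans (Finset.sum_congr rfl fun j _ => ?_) (W₁.addSubMapCoeff_condition s i)
    simp only [W₁, addSubTriple, map_addSubMap, MvPolynomial.eval_map]

lemma isPrimitiveTriple_addSubTriple {s : Fin 3 → k[X]} (hs : IsPrimitiveTriple s) :
    IsPrimitiveTriple (addSubTriple W s) := by
  refine isPrimitiveTriple_of_forall fun π hπ hdvd => ?_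
  obtain ⟨e, -, he⟩ := addSubTriple_condition W s
  refine hπ.not_isUnit (hs.not_forall_dvd fun i => hπ.dvd_of_dvd_pow (n := 4) ?_)
  rw [← he i]
  exact Finset.dvd_sum fun j _ => (hdvd j).mul_left _

lemma tripleDeg_addSubTriple (s : Fin 3 → k[X]) :
    tripleDeg (addSubTriple W s) = 2 * tripleDeg s := by
  refine le_antisymm ((tripleDeg_le_iff _ _).mpr fun i => ?_) ?_
  · exact natDegree_eval₂_C_le (W.isHomogeneous_addSubMap i) s
  · obtain ⟨e, hdeg, he⟩ := addSubTriple_condition W s
    have : ∀ i, 4 * (s i).natDegree ≤ 2 * tripleDeg s + tripleDeg (addSubTriple W s) := fun i => by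
      rw [← Polynomial.natDegree_pow, ← he i]
      refine Polynomial.natDegree_sum_le_of_forall_le _ _ fun j _ => ?_
      exact Polynomial.natDegree_mul_le.trans
        (Nat.add_le_add (hdeg i j) (natDegree_le_tripleDeg _ j))
    have h0 := this 0
    have h1 := this 1
    have h2 := this 2
    have hd : tripleDeg s = max (s 0).natDegree (max (s 1).natDegree (s 2).natDegree) := rfl
    omega

variable [Algebra k L] [IsScalarTower k k[X] L]

/-- `x(P) = a / b` with `a`, `b` coprime polynomials. -/
def HasXPair (P : (W⁄L).Point) (a b : k[X]) : Prop :=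
  IsCoprime a b ∧ algebraMap k[X] L a * P.xRep 1 = algebraMap k[X] L b * P.xRep 0

/-- `x(P)` is a rational function of degree `d`. -/
def IsXDeg (P : (W⁄L).Point) (d : ℕ) : Prop :=
  ∃ a b, HasXPair W P a b ∧ max a.natDegree b.natDegree = d

variable {W}

omit [W.IsElliptic] in
lemma HasXPair.exists_smul {P : (W⁄L).Point} {a b : k[X]} (h : HasXPair W P a b) :
    ∃ c : L, c ≠ 0 ∧ ![algebraMap k[X] L a, algebraMap k[X] L b] = c • P.xRep := by
  obtain ⟨hcop, heq⟩ := h
  have hne : algebraMap k[X] L a ≠ 0 ∨ algebraMap k[X] L b ≠ 0 := by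
    simpa [map_eq_zero_iff _ (FaithfulSMul.algebraMap_injective k[X] L)] using
      hcop.ne_zero_or_ne_zero
  rcases P with _ | ⟨x, y, hxy⟩
  · rw [← Point.zero_def] at heq ⊢
    simp only [xRep_zero, Matrix.cons_val_zero, Matrix.cons_val_one, mul_zero, mul_one] at heq
    refine ⟨algebraMap k[X] L a, hne.resolve_right (by simp [← heq]), ?_⟩
    ext i
    fin_cases i <;> simp [← heq]
  · simp only [xRep_some, Matrix.cons_val_zero, Matrix.cons_val_one, mul_one] at heq
    refine ⟨algebraMap k[X] L b, fun hb => ?_, ?_⟩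
    · rw [hb, zero_mul] at heq
      simp [hb, heq] at hne
    · ext i
      fin_cases i <;> simp [heq]

omit [W.IsElliptic] in
lemma algebraMap_symTriple {P Q : (W⁄L).Point} {a b a' b' : k[X]} (h : HasXPair W P a b)
    (h' : HasXPair W Q a' b') :
    ∃ c : L, c ≠ 0 ∧
      (fun i => algebraMap k[X] L (symTriple a b a' b' i)) = c • P.sym2x Q := by
  obtain ⟨c, hc, he⟩ := h.exists_smul
  obtain ⟨c', hc', he'⟩ := h'.exists_smul
  have a0 := congrFun he 0
  have a1 := congrFun he 1
  have b0 := congrFun he' 0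
  have b1 := congrFun he' 1
  simp only [Matrix.cons_val_zero, Matrix.cons_val_one, Pi.smul_apply, smul_eq_mul] at a0 a1 b0 b1
  refine ⟨c * c', mul_ne_zero hc hc', ?_⟩
  ext i
  fin_cases i <;>
    simp [symTriple, sym2x, a0, a1, b0, b1] <;> ring

variable [DecidableEq L]

/-- The parallelogram law, exactly. -/
theorem parallelogram {P Q : (W⁄L).Point} {dP dQ dS dD : ℕ} (hP : IsXDeg W P dP)
    (hQ : IsXDeg W Q dQ) (hS : IsXDeg W (P + Q) dS) (hD : IsXDeg W (P - Q) dD) :
    dS + dD = 2 * dP + 2 * dQ := by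
  obtain ⟨a, b, hP, rfl⟩ := hP
  obtain ⟨a', b', hQ, rfl⟩ := hQ
  obtain ⟨s, t, hS, rfl⟩ := hS
  obtain ⟨s', t', hD, rfl⟩ := hD
  obtain ⟨c₁, hc₁, e₁⟩ := algebraMap_symTriple hP hQ
  obtain ⟨c₂, hc₂, e₂⟩ := algebraMap_symTriple hS hD
  haveI : (W⁄L).IsElliptic := inferInstanceAs ((W.map (algebraMap k L)).IsElliptic)
  obtain ⟨c₃, hc₃, e₃⟩ := addSubEval_sym2x (W⁄L) P Q
  have key : ∀ i, algebraMap k[X] L (addSubTriple W (symTriple a b a' b') i) =
      c₁ ^ 2 * c₃ * c₂⁻¹ * algebraMap k[X] L (symTriple s t s' t' i) := fun i => by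
    have hsc : ∀ v : Fin 3 → L, ((W⁄L).addSubMap i).eval (c₁ • v) =
        c₁ ^ 2 * ((W⁄L).addSubMap i).eval v := fun v =>
      eval_smul_of_isHomogeneous ((W⁄L).isHomogeneous_addSubMap i) c₁ v
    have e4 : algebraMap k[X] L (addSubTriple W (symTriple a b a' b') i) =
        ((W⁄L).addSubMap i).eval (c₁ • P.sym2x Q) := by
      rw [← e₁, addSubTriple]
      change _ = ((W.map (algebraMap k L)).addSubMap i).eval _
      rw [map_addSubMap, MvPolynomial.eval_map, MvPolynomial.eval₂_comp_left
        (algebraMap k[X] L), ← Polynomial.algebraMap_eq, ← IsScalarTower.algebraMap_eq]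
      rfl
    have e5 := congrFun e₃ i
    simp only [addSubEval, Pi.smul_apply, smul_eq_mul] at e5
    have e6 := congrFun e₂ i
    simp only [Pi.smul_apply, smul_eq_mul] at e6
    rw [e4, hsc, e5, e6]
    field_simp
  have h := tripleDeg_eq_of_smul_eq
    (isPrimitiveTriple_addSubTriple W (isPrimitiveTriple_symTriple hP.1 hQ.1))
    (isPrimitiveTriple_symTriple hS.1 hD.1) key
  rw [tripleDeg_addSubTriple, tripleDeg_symTriple hP.1 hQ.1, tripleDeg_symTriple hS.1 hD.1] at h
  omega

omit [W.IsElliptic] [DecidableEq L] in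
lemma IsXDeg.unique {P : (W⁄L).Point} {d d' : ℕ} (h : IsXDeg W P d) (h' : IsXDeg W P d') :
    d = d' := by
  obtain ⟨a, b, h, rfl⟩ := h
  obtain ⟨a', b', h', rfl⟩ := h'
  obtain ⟨c, hc, e⟩ := algebraMap_symTriple h h
  obtain ⟨c', hc', e'⟩ := algebraMap_symTriple h' h'
  have := tripleDeg_eq_of_smul_eq (L := L) (c := c * c'⁻¹)
    (isPrimitiveTriple_symTriple h.1 h.1) (isPrimitiveTriple_symTriple h'.1 h'.1) fun i => by
      have e1 := congrFun e i
      have e2 := congrFun e' i
      simp only [Pi.smul_apply, smul_eq_mul] at e1 e2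
      rw [e1, e2]
      field_simp
  rw [tripleDeg_symTriple h.1 h.1, tripleDeg_symTriple h'.1 h'.1] at this
  omega

omit [W.IsElliptic] [DecidableEq L] in
lemma isXDeg_zero : IsXDeg W (0 : (W⁄L).Point) 0 :=
  ⟨1, 0, ⟨isCoprime_one_left, by simp⟩, by simp⟩

omit [W.IsElliptic] [DecidableEq L] in
lemma IsXDeg.neg {P : (W⁄L).Point} {d : ℕ} (h : IsXDeg W P d) : IsXDeg W (-P) d := by
  obtain ⟨a, b, h, rfl⟩ := h
  exact ⟨a, b, ⟨h.1, by simpa using h.2⟩, rfl⟩

end Curve

/-- A function satisfying the parallelogram law is quadratic. -/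
theorem parallelogram_quadratic {A : Type*} [AddCommGroup A] (h : A → ℤ)
    (hpar : ∀ P Q, h (P + Q) + h (P - Q) = 2 * h P + 2 * h Q) (P Q : A) (m n : ℤ) :
    h (m • P + n • Q) = m ^ 2 * h P + m * n * (h (P + Q) - h P - h Q) + n ^ 2 * h Q := by
  have h0 : h 0 = 0 := by
    have := hpar 0 0
    simp at this
    omega
  have hline : ∀ (R S : A) (j : ℤ),
      h (R + j • S) = h R + j * (h (R + S) - h R - h S) + j ^ 2 * h S := by
    intro R S j
    have step : ∀ i : ℤ, h (R + (i + 1) • S) + h (R + (i - 1) • S) =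
        2 * h (R + i • S) + 2 * h S := fun i => by
      rw [← hpar]
      congr 2 <;> simp only [add_smul, sub_smul, one_smul] <;> abel
    suffices H : ∀ i : ℤ,
        h (R + i • S) = h R + i * (h (R + S) - h R - h S) + i ^ 2 * h S ∧
        h (R + (i + 1) • S) =
          h R + (i + 1) * (h (R + S) - h R - h S) + (i + 1) ^ 2 * h S from (H j).1
    intro i
    induction i using Int.induction_on with
    | zero => simp; ring
    | succ i ih =>
      refine ⟨ih.2, ?_⟩
      have := step (i + 1)
      rw [show ((i : ℤ) + 1 - 1) = i by ring, ih.1, ih.2] at this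
      linear_combination this
    | pred i ih =>
      refine ⟨?_, by rw [sub_add_cancel]; exact ih.1⟩
      have := step (-i)
      rw [ih.1, ih.2] at this
      linear_combination this
  have hsq : ∀ (S : A) (j : ℤ), h (j • S) = j ^ 2 * h S := fun S j => by
    have := hline 0 S j
    simpa [h0] using this
  have hB : ∀ (R S : A) (j : ℤ), h (j • R + S) - h (j • R) - h S =
      j * (h (R + S) - h R - h S) := fun R S j => by
    rw [add_comm (j • R) S, add_comm R S, hline, hsq]
    ring
  have h1 := hline (m • P) Q n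
  rw [hsq] at h1
  have h2 := hB P Q m
  rw [hsq] at h2
  rw [h1]
  linear_combination n * h2

end Fermat.Agent.EC.Frob
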