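import Fermat.Agent.EC.Frob.GenericPoint
import Fermat.Agent.EC.Frob.Height
import Mathlib.FieldTheory.AlgebraicClosure
import Mathlib.FieldTheory.Separable

/-!
Fibres of maps of the form `Q ↦ (evaluation of a fixed point of E(F(W)) at Q)` over generic
points: a separable one of degree `d` has exactly `d` points in each generic fibre, hence is
surjective with kernel of order `d`.
-/

open Polynomial WeierstrassCurve.Affine
open scoped Polynomial.Bivariate WeierstrassCurve.Affine

namespace Fermat.Agent.EC.Frob

universe u v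

variable {F : Type u} [Field F] (W : WeierstrassCurve.Affine F) [W.IsElliptic]

lemma nonsingular_of_equation {L : Type v} [Field L] [Algebra F L] {x y : L}
    (h : (W⁄L).Equation x y) : (W⁄L).Nonsingular x y :=
  haveI : WeierstrassCurve.IsElliptic (W⁄L) :=
    inferInstanceAs ((W.map (algebraMap F L)).IsElliptic)
  equation_iff_nonsingular.mp h

/-- The generic point. -/
noncomputable def genPt : (W⁄(FnField W)).Point :=
  .some _ _ (nonsingular_of_equation W (equation_gen W))

lemma map_conj_genPt [DecidableEq (FnField W)] :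
    Point.map (conj W) (genPt W) = -genPt W := by
  simp only [genPt, Point.map_some, Point.neg_some, Point.some.injEq]
  exact ⟨conj_xGen W, conj_yGen W⟩

lemma exists_isXDeg [DecidableEq (FnField W)] {P : (W⁄(FnField W)).Point}
    (hP : Point.map (conj W) P = -P) : ∃ d, IsXDeg W P d := by
  rcases P with _ | ⟨x, y, h⟩
  · exact ⟨0, isXDeg_zero⟩
  · rw [Point.map_some, Point.neg_some, Point.some.injEq] at hP
    obtain ⟨A, B, hAB, -, he⟩ := exists_isCoprime_of_conj_eq W hP.1
    refine ⟨_, A, B, ⟨hAB, ?_⟩, rfl⟩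
    simp only [Point.xRep_some, Matrix.cons_val_one, Matrix.cons_val_zero, mul_one, ← he]
    ring

/-- An odd point of degree zero is constant. -/
lemma mem_range_of_isXDeg_zero [DecidableEq F] [DecidableEq (FnField W)]
    {P : (W⁄(FnField W)).Point} (hP : Point.map (conj W) P = -P) (hd : IsXDeg W P 0) :
    P ∈ (Point.map (W' := W) (Algebra.ofId F (FnField W))).range := by
  rcases P with _ | ⟨x, y, h⟩
  · exact zero_mem _
  · obtain ⟨a, b, ⟨hcop, heq⟩, hmax⟩ := hd
    obtain ⟨ha, hb⟩ := max_eq_bot.mp (hmax.trans Nat.bot_eq_zero.symm)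
    simp only [Point.xRep_some, Matrix.cons_val_one, Matrix.cons_val_zero, mul_one] at heq
    rw [Nat.bot_eq_zero] at ha hb
    rw [eq_C_of_natDegree_eq_zero ha, eq_C_of_natDegree_eq_zero hb, ← Polynomial.algebraMap_eq,
      ← IsScalarTower.algebraMap_apply, ← IsScalarTower.algebraMap_apply] at heq
    have hb0 : b.coeff 0 ≠ 0 := fun h0 => by
      rw [h0, map_zero, zero_mul, map_eq_zero] at heq
      rw [eq_C_of_natDegree_eq_zero ha, eq_C_of_natDegree_eq_zero hb, h0, heq, C_0] at hcop
      exact not_isCoprime_zero_zero hcop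
    set e := a.coeff 0 / b.coeff 0 with he
    have hx : x = algebraMap F (FnField W) e := by
      rw [he, map_div₀, eq_div_iff ((_root_.map_ne_zero _).mpr hb0), heq, mul_comm]
    rw [Point.map_some, Point.neg_some, Point.some.injEq] at hP
    obtain ⟨c, hc⟩ := mem_range_of_conj_sum_prod W (a := y) (e := -W.a₁ * e - W.a₃)
      (c := -(e ^ 3 + W.a₂ * e ^ 2 + W.a₄ * e + W.a₆)) (by
        rw [hP.2, hx]
        simp [negY, WeierstrassCurve.Affine.baseChange]
        ring) (by
        have hE := (equation_iff x y).mp h.1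
        rw [hP.2, hx] at *
        simp [negY, WeierstrassCurve.Affine.baseChange] at hE ⊢
        linear_combination -hE)
    have hn : (W⁄F).Nonsingular e c := by
      refine (W.baseChange_nonsingular (f := Algebra.ofId F (FnField W))
        (Algebra.ofId F (FnField W)).injective e c).mp ?_
      simpa [Algebra.ofId_apply, ← hx, hc] using! h
    exact ⟨.some e c hn, by simp [Point.map_some, Algebra.ofId_apply, hx, hc]⟩

section Field

variable {L : Type v} [Field L] [Algebra F L] [DecidableEq L]

/-- The group of points of `E(L)` with coordinates algebraic over `F`. -/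
noncomputable def algPts : AddSubgroup (W⁄L).Point :=
  haveI : DecidableEq (algebraicClosure F L) := Classical.decEq _
  (Point.map (W' := W) (algebraicClosure F L).val).range

lemma mem_algPts_some {x y : L} (h : (W⁄L).Nonsingular x y) :
    Point.some x y h ∈ algPts W (L := L) ↔ IsAlgebraic F x := by
  let _ : DecidableEq (algebraicClosure F L) := Classical.decEq _
  constructor
  · rintro ⟨P, hP⟩
    rcases P with _ | ⟨a, b, hab⟩
    · simp [← Point.zero_def] at hP
    · rw [Point.map_some, Point.some.injEq] at hP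
      rw [← hP.1]
      exact mem_algebraicClosure_iff.mp a.2
  · intro hx
    set A := algebraicClosure F L
    let a : A := ⟨x, mem_algebraicClosure_iff.mpr hx⟩
    have hy : IsIntegral A y := by
      refine ⟨X ^ 2 + C ((W⁄A).a₁ * a + (W⁄A).a₃) * X -
        C (a ^ 3 + (W⁄A).a₂ * a ^ 2 + (W⁄A).a₄ * a + (W⁄A).a₆), by monicity!, ?_⟩
      have hE := (equation_iff x y).mp h.1
      simp [WeierstrassCurve.Affine.baseChange, a, ← IsScalarTower.algebraMap_apply] at hE ⊢
      linear_combination hE
    have hy' : y ∈ A :=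
      mem_algebraicClosure_iff.mpr (isIntegral_trans (R := F) y hy).isAlgebraic
    have hn : (W⁄A).Nonsingular a (⟨y, hy'⟩ : A) :=
      (W.baseChange_nonsingular (f := A.val) A.val.injective a (⟨y, hy'⟩ : A)).mp (by simpa [a] using! h)
    exact ⟨.some _ _ hn, by simp [Point.map_some, a]⟩

/-- `Q` is generic: its abscissa is transcendental over `F`. -/
lemma not_mem_algPts_some {x y : L} (h : (W⁄L).Nonsingular x y) :
    Point.some x y h ∉ algPts W (L := L) ↔ Transcendental F x :=
  not_congr (mem_algPts_some W h)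

/-- Evaluation of a point of `E(F(W))` at a generic point. -/
noncomputable def evalPt [DecidableEq (FnField W)] {x y : L} (h : (W⁄L).Nonsingular x y)
    (hx : Transcendental F x) : (W⁄(FnField W)).Point →+ (W⁄L).Point :=
  Point.map (tau W h.1 hx)

lemma evalPt_genPt [DecidableEq (FnField W)] {x y : L} (h : (W⁄L).Nonsingular x y)
    (hx : Transcendental F x) : evalPt W h hx (genPt W) = .some x y h := by
  simp [evalPt, genPt, Point.map_some, tau_xGen, tau_yGen]

omit [W.IsElliptic] [DecidableEq L] in
lemma transcendental_iff_of_aeval_eq {A B : F[X]} (hAB : IsCoprime A B)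
    (hd : 0 < max A.natDegree B.natDegree) {x x' : L} (h : x' * aeval x B = aeval x A) :
    Transcendental F x' ↔ Transcendental F x := by
  refine ⟨fun hx' hx => hx' ?_, fun hx hx' => hx ?_⟩
  · have hB : aeval x B ≠ 0 := fun hB0 => by
      obtain ⟨u, v, huv⟩ := hAB
      have := congrArg (aeval x) huv
      rw [map_add, map_mul, map_mul, map_one, hB0, ← h, hB0] at this
      simp at this
    rw [← eq_div_iff hB] at h
    rw [h, ← mem_algebraicClosure_iff]
    rw [← mem_algebraicClosure_iff] at hx
    have hmem : ∀ C : F[X], aeval x C ∈ algebraicClosure F L := fun C => by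
      rw [show x = (algebraicClosure F L).val ⟨x, hx⟩ from rfl, aeval_algHom_apply]
      exact Subtype.property _
    exact div_mem (hmem A) (hmem B)
  · set S := algebraicClosure F L
    let a : S := ⟨x', mem_algebraicClosure_iff.mpr hx'⟩
    let f : S[X] := A.map (algebraMap F S) - Polynomial.C a * B.map (algebraMap F S)
    have hf : f ≠ 0 := by
      intro hf0
      have hdvd : B.map (algebraMap F S) ∣ A.map (algebraMap F S) :=
        ⟨Polynomial.C a, by rw [mul_comm]; exact (sub_eq_zero.mp hf0)⟩
      have hcop : IsCoprime (A.map (algebraMap F S)) (B.map (algebraMap F S)) :=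
        hAB.map (mapRingHom (algebraMap F S))
      have hu := natDegree_eq_zero_of_isUnit (hcop.isUnit_of_dvd' hdvd dvd_rfl)
      rw [natDegree_map] at hu
      have hA : (A.map (algebraMap F S)).natDegree ≤ 0 := by
        rw [sub_eq_zero.mp hf0]
        refine natDegree_mul_le.trans ?_
        rw [natDegree_C, natDegree_map, hu]
      rw [natDegree_map] at hA
      omega
    have hroot : aeval x f = 0 := by
      simp [f, a, aeval_map_algebraMap, h]
    exact (isIntegral_trans (R := F) x (IsAlgebraic.isIntegral ⟨f, hf, hroot⟩)).isAlgebraic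

lemma evalPt_some [DecidableEq (FnField W)] {X₀ Y₀ : FnField W}
    {h₀ : (W⁄(FnField W)).Nonsingular X₀ Y₀} {A B : F[X]}
    (hp : HasXPair W (Point.some X₀ Y₀ h₀) A B) {x y : L} (h : (W⁄L).Nonsingular x y)
    (hx : Transcendental F x) :
    ∃ x' y' h', evalPt W h hx (.some X₀ Y₀ h₀) = .some x' y' h' ∧
      x' * aeval x B = aeval x A := by
  refine ⟨_, _, _, Point.map_some _ h₀, ?_⟩
  have := congrArg (tau W h.1 hx) hp.2
  simpa [tau_algebraMap_poly, mul_comm] using this.symm

variable [IsAlgClosed L]

omit [W.IsElliptic] [DecidableEq L] in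
lemma exists_equation (x : L) : ∃ y, (W⁄L).Equation x y := by
  obtain ⟨y, hy⟩ := IsAlgClosed.exists_root
    (Polynomial.X ^ 2 + Polynomial.C ((W⁄L).a₁ * x + (W⁄L).a₃) * Polynomial.X -
      Polynomial.C (x ^ 3 + (W⁄L).a₂ * x ^ 2 + (W⁄L).a₄ * x + (W⁄L).a₆))
    (by rw [show degree _ = (2 : WithBot ℕ) by compute_degree!]; norm_num)
  refine ⟨y, (equation_iff x y).mpr ?_⟩
  simp [WeierstrassCurve.Affine.baseChange] at hy ⊢
  linear_combination hy

omit [W.IsElliptic] [DecidableEq L] in
lemma natCard_roots {A B : F[X]} (hAB : IsCoprime A B) (hd : 0 < max A.natDegree B.natDegree)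
    (hsep : derivative A * B - A * derivative B ≠ 0) {X₁ : L} (hX : Transcendental F X₁) :
    Nat.card {x : L // X₁ * aeval x B = aeval x A} = max A.natDegree B.natDegree := by
  classical
  set d := max A.natDegree B.natDegree with hdd
  set f : L[X] := A.map (algebraMap F L) - Polynomial.C X₁ * B.map (algebraMap F L) with hf
  have hcoeff : f.coeff d ≠ 0 := by
    simp only [hf, coeff_sub, coeff_map, coeff_C_mul]
    intro h0
    by_cases hb : B.coeff d = 0
    · rw [hb, map_zero, mul_zero, sub_zero, map_eq_zero] at h0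
      rcases max_choice A.natDegree B.natDegree with hm | hm <;> rw [← hdd] at hm
      · have : A ≠ 0 := by rintro rfl; rw [natDegree_zero] at hm; omega
        exact leadingCoeff_ne_zero.mpr this (by rw [leadingCoeff, ← hm]; exact h0)
      · have : B ≠ 0 := by rintro rfl; rw [natDegree_zero] at hm; omega
        exact leadingCoeff_ne_zero.mpr this (by rw [leadingCoeff, ← hm]; exact hb)
    · refine hX (?_ : IsAlgebraic F X₁)
      have : X₁ = algebraMap F L (A.coeff d / B.coeff d) := by
        rw [map_div₀, eq_div_iff ((_root_.map_ne_zero _).mpr hb)]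
        linear_combination -h0
      exact this ▸ isAlgebraic_algebraMap _
  have hfd : f.natDegree = d := by
    refine natDegree_eq_of_le_of_coeff_ne_zero ?_ hcoeff
    refine (natDegree_sub_le _ _).trans (max_le ?_ ?_)
    · rw [natDegree_map]; exact le_max_left ..
    · refine (natDegree_C_mul_le _ _).trans ?_
      rw [natDegree_map]; exact le_max_right ..
  have hf0 : f ≠ 0 := fun h0 => hcoeff (by simp [h0])
  have hev : ∀ x : L, aeval x f = aeval x A - X₁ * aeval x B := fun x => by
    simp [hf, aeval_map_algebraMap]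
  have hfsep : f.Separable := by
    rw [separable_def, isCoprime_iff_aeval_ne_zero_of_isAlgClosed L L]
    intro x
    by_contra hne
    push Not at hne
    obtain ⟨h0, h1⟩ := hne
    rw [hev, sub_eq_zero] at h0
    have hxT : Transcendental F x := (transcendental_iff_of_aeval_eq hAB hd h0.symm).mp hX
    simp [hf, derivative_map, aeval_map_algebraMap] at h1
    refine hsep ((transcendental_iff.mp hxT) _ ?_)
    simp only [map_sub, map_mul, h0]
    linear_combination (aeval x B) * h1
  rw [← hfd, ← card_rootSet_eq_natDegree (K := L) hfsep (IsAlgClosed.splits _),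
    ← Nat.card_eq_fintype_card]
  refine Nat.card_congr (Equiv.subtypeEquivRight fun x => ?_)
  rw [mem_rootSet, hev, sub_eq_zero]
  exact ⟨fun h => ⟨hf0, h.symm⟩, fun h => h.2.symm⟩

/-- The fibre theorem: `ψ` induced by an odd `P` of degree `d > 0` with separable x-coordinate is
surjective and its kernel has order `d`. -/
theorem surjective_and_natCard_ker [DecidableEq (FnField W)] {P : (W⁄(FnField W)).Point}
    (hneg : P ≠ -P) {A B : F[X]} (hp : HasXPair W P A B) (hd : 0 < max A.natDegree B.natDegree)
    (hsep : derivative A * B - A * derivative B ≠ 0) {g : L} (hg : Transcendental F g)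
    (ψ : (W⁄L).Point →+ (W⁄L).Point)
    (hψ : ∀ (x y : L) (h : (W⁄L).Nonsingular x y) (hx : Transcendental F x),
      ψ (.some x y h) = evalPt W h hx P)
    (halg : ∀ Q ∈ algPts W (L := L), ψ Q ∈ algPts W) :
    Function.Surjective ψ ∧ Nat.card ψ.ker = max A.natDegree B.natDegree := by
  rcases P with _ | ⟨X₀, Y₀, h₀⟩
  · exact absurd rfl hneg
  have hgen : ∀ Q ∉ algPts W (L := L), ∃ x y h, Q = .some x y h ∧ Transcendental F x := by
    rintro (_ | ⟨x, y, h⟩) hQ
    · exact absurd (zero_mem _) hQ
    · exact ⟨x, y, h, rfl, (not_mem_algPts_some W h).mp hQ⟩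
  -- the image of a generic point is generic
  have himg : ∀ Q ∉ algPts W (L := L), ψ Q ∉ algPts W := fun Q hQ => by
    obtain ⟨x, y, h, rfl, hx⟩ := hgen Q hQ
    obtain ⟨x', y', h', he, he'⟩ := evalPt_some W hp h hx
    rw [hψ x y h hx, he, not_mem_algPts_some]
    exact (transcendental_iff_of_aeval_eq hp.1 hd he').mpr hx
  -- generic fibres
  have hfib : ∀ G ∉ algPts W (L := L),
      Nat.card {Q // ψ Q = G} = max A.natDegree B.natDegree := by
    intro G hG
    obtain ⟨X₁, Y₁, hG', rfl, hX⟩ := hgen G hG
    rw [← natCard_roots hp.1 hd hsep hX]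
    have hQ : ∀ {Q}, ψ Q = .some X₁ Y₁ hG' → Q ∉ algPts W (L := L) := fun {Q} hQ hmem =>
      hG (hQ ▸ halg Q hmem)
    have hxy : ∀ {x y : L} (h : (W⁄L).Nonsingular x y),
        ψ (.some x y h) = .some X₁ Y₁ hG' → X₁ * aeval x B = aeval x A := fun {x y} h he => by
      have hx := (not_mem_algPts_some W h).mp (hQ he)
      obtain ⟨x', y', h', he₁, he₂⟩ := evalPt_some W hp h hx
      rw [hψ x y h hx, he₁, Point.some.injEq] at he
      rw [← he.1, he₂]
    have hne : Point.some X₁ Y₁ hG' ≠ -Point.some X₁ Y₁ hG' := by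
      -- some point of the fibre or its negative gives `X₁`
      intro h2
      have h3 : evalPt W hG' hX (genPt W) = evalPt W hG' hX (-genPt W) := by
        rw [map_neg, evalPt_genPt, ← h2]
      have h4 := Point.map_injective (f := tau W hG'.1 hX) h3
      simp only [genPt, Point.neg_some, Point.some.injEq] at h4
      exact gen_ne_negY W h4.2
    refine Nat.card_congr (Equiv.ofBijective
      (fun Q => ⟨Q.1.xRep 0, ?_⟩) ⟨?_, ?_⟩)
    · obtain ⟨x, y, h, he, -⟩ := hgen Q.1 (hQ Q.2)
      simpa [he] using hxy h (he ▸ Q.2)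
    · rintro ⟨Q, hQe⟩ ⟨Q', hQe'⟩ hx
      obtain ⟨x, y, h, rfl, -⟩ := hgen Q (hQ hQe)
      obtain ⟨x', y', h', rfl, -⟩ := hgen Q' (hQ hQe')
      simp only [Subtype.mk.injEq, Point.xRep_some, Matrix.cons_val_zero] at hx ⊢
      rcases (Point.X_eq_iff (h₁ := h) (h₂ := h')).mp hx with e | e
      · exact e
      · rw [e, map_neg, hQe', eq_comm] at hQe
        exact absurd hQe hne
    · rintro ⟨x, hx⟩
      obtain ⟨y, hy⟩ := exists_equation W (L := L) x
      have hxT := (transcendental_iff_of_aeval_eq hp.1 hd hx).mp hX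
      have hn := nonsingular_of_equation W hy
      obtain ⟨x', y', h', he₁, he₂⟩ := evalPt_some W hp hn hxT
      have hB : aeval x B ≠ 0 := by
        intro hB
        have hB0 : B = 0 := (transcendental_iff.mp hxT) B hB
        obtain ⟨u, v, huv⟩ := hp.1
        rw [hB0, mul_zero, add_zero] at huv
        have hA0 : aeval x A = 0 := by rw [← hx, hB, mul_zero]
        have := (transcendental_iff.mp hxT) A hA0
        rw [this, mul_zero] at huv
        exact zero_ne_one huv
      have hx' : x' = X₁ := mul_right_cancel₀ hB (he₂.trans hx.symm)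
      subst hx'
      have he : ψ (.some x y hn) = .some x' y' h' := by rw [hψ x y hn hxT, he₁]
      rcases (Point.X_eq_iff (h₁ := h') (h₂ := hG')).mp rfl with e | e
      · exact ⟨⟨.some x y hn, he.trans e⟩, by simp⟩
      · exact ⟨⟨-.some x y hn, by rw [map_neg, he, e, neg_neg]⟩, by simp⟩
  obtain ⟨y, hy⟩ := exists_equation W (L := L) g
  set G₁ := Point.some g y (nonsingular_of_equation W hy) with hG₁
  have hG₁g : G₁ ∉ algPts W (L := L) := (not_mem_algPts_some W _).mpr hg
  set G := ψ G₁ with hGdef
  have hGg : G ∉ algPts W (L := L) := himg G₁ hG₁g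
  have hex : ∀ G' ∉ algPts W (L := L), ∃ Q, ψ Q = G' := fun G' hG' => by
    obtain ⟨Q⟩ := (Nat.card_pos_iff.mp ((hfib G' hG').symm ▸ hd)).1
    exact ⟨Q.1, Q.2⟩
  refine ⟨fun T => ?_, ?_⟩
  · by_cases hT : T ∈ algPts W (L := L)
    · obtain ⟨Q, hQ⟩ := hex (G + T) fun h => hGg (by simpa using sub_mem h hT)
      exact ⟨Q - G₁, by rw [map_sub, hQ, ← hGdef, add_sub_cancel_left]⟩
    · exact hex T hT
  · rw [← hfib G hGg]
    refine Nat.card_congr
      { toFun := fun Q => ⟨G₁ + Q.1, by rw [map_add, AddMonoidHom.mem_ker.mp Q.2, add_zero]⟩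
        invFun := fun Q => ⟨Q.1 - G₁, by rw [AddMonoidHom.mem_ker, map_sub, Q.2, sub_self]⟩
        left_inv := fun Q => Subtype.ext (by simp)
        right_inv := fun Q => Subtype.ext (by simp) }

end Field

end Fermat.Agent.EC.Frob
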