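import Mathlib.AlgebraicGeometry.EllipticCurve.Affine.Point
import Mathlib.RingTheory.Localization.FractionRing
import Mathlib.RingTheory.Norm.Basic
import Mathlib.FieldTheory.IsAlgClosed.Basic

/-!
The generic point of a Weierstrass curve `W` over a field `F`, the involution of the function
field, and the embeddings `F(W) → L` attached to points of `W` with transcendental abscissa.
-/

open Polynomial
open scoped Polynomial.Bivariate WeierstrassCurve.Affine

namespace Fermat.Agent.EC.Frob

universe u v

variable {F : Type u} [Field F] (W : WeierstrassCurve.Affine F)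

/-- The function field of `W`. -/
abbrev FnField := W.FunctionField

/-- The abscissa of the generic point. -/
noncomputable def xGen : FnField W := algebraMap F[X] (FnField W) X

/-- The ordinate of the generic point. -/
noncomputable def yGen : FnField W :=
  algebraMap W.CoordinateRing (FnField W) (AdjoinRoot.root W.polynomial)

lemma algebraMap_poly_eq_aeval (p : F[X]) :
    algebraMap F[X] (FnField W) p = aeval (xGen W) p := by
  rw [xGen, Polynomial.aeval_algebraMap_apply, aeval_X_left_apply]

lemma algebraMap_poly_injective : Function.Injective (algebraMap F[X] (FnField W)) := by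
  rw [IsScalarTower.algebraMap_eq F[X] W.CoordinateRing (FnField W), RingHom.coe_comp]
  exact (IsFractionRing.injective W.CoordinateRing (FnField W)).comp
    (FaithfulSMul.algebraMap_injective F[X] W.CoordinateRing)

lemma transcendental_xGen : Transcendental F (xGen W) := by
  rw [transcendental_iff]
  intro p hp
  rw [← algebraMap_poly_eq_aeval] at hp
  exact algebraMap_poly_injective W (by rw [hp, map_zero])

lemma eval₂_polynomial_eq {L : Type v} [CommRing L] [Algebra F L] (x y : L) :
    W.polynomial.eval₂ ↑(aeval x : F[X] →ₐ[F] L) y =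
      (W⁄L).polynomial.evalEval x y := by
  rw [WeierstrassCurve.Affine.evalEval_polynomial]
  simp [WeierstrassCurve.Affine.polynomial, WeierstrassCurve.Affine.baseChange, eval₂_pow]
  ring

lemma equation_gen : (W⁄(FnField W)).Equation (xGen W) (yGen W) := by
  rw [WeierstrassCurve.Affine.Equation, ← eval₂_polynomial_eq]
  have : (↑(aeval (xGen W) : F[X] →ₐ[F] FnField W) : F[X] →+* FnField W) =
      (algebraMap W.CoordinateRing (FnField W)).comp
        (AdjoinRoot.of W.polynomial) :=
    RingHom.ext fun p => (algebraMap_poly_eq_aeval W p).symm.trans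
      (IsScalarTower.algebraMap_apply F[X] W.CoordinateRing (FnField W) p)
  rw [this, yGen, ← Polynomial.hom_eval₂, AdjoinRoot.eval₂_root, map_zero]

section Tau

variable {L : Type v} [Field L] [Algebra F L]

/-- Evaluation of the coordinate ring at a point. -/
noncomputable def evalHom {x y : L} (h : (W⁄L).Equation x y) :
    W.CoordinateRing →ₐ[F] L :=
  AdjoinRoot.liftAlgHom W.polynomial (aeval x : F[X] →ₐ[F] L) y
    (by rw [eval₂_polynomial_eq]; exact h)

lemma evalHom_algebraMap {x y : L} (h : (W⁄L).Equation x y) (p : F[X]) :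
    evalHom W h (algebraMap F[X] W.CoordinateRing p) = aeval x p := by
  rw [evalHom, AdjoinRoot.algebraMap_eq, AdjoinRoot.liftAlgHom_of]

lemma evalHom_injective {x y : L} (h : (W⁄L).Equation x y)
    (hx : Transcendental F x) : Function.Injective (evalHom W h) := by
  rw [injective_iff_map_eq_zero]
  intro u hu
  obtain ⟨p, q, rfl⟩ := WeierstrassCurve.Affine.CoordinateRing.exists_smul_basis_eq u
  have h1 : algebraMap F[X] W.CoordinateRing
      (Algebra.norm F[X] (p • (1 : W.CoordinateRing) +
        q • WeierstrassCurve.Affine.CoordinateRing.mk W Y)) =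
      WeierstrassCurve.Affine.CoordinateRing.mk W ((C p + C q * X) *
        (C p + C q * (-(Y : F[X][Y]) - C (C W.a₁ * X + C W.a₃)))) :=
    WeierstrassCurve.Affine.CoordinateRing.coe_norm_smul_basis p q
  have h2 : WeierstrassCurve.Affine.CoordinateRing.mk W (C p + C q * X) =
      p • (1 : W.CoordinateRing) +
        q • WeierstrassCurve.Affine.CoordinateRing.mk W Y := by
    rw [WeierstrassCurve.Affine.CoordinateRing.smul, WeierstrassCurve.Affine.CoordinateRing.smul,
      mul_one, map_add, map_mul]
  rw [map_mul, h2] at h1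
  have h3 := congrArg (evalHom W h) h1
  rw [map_mul, hu, zero_mul, evalHom_algebraMap] at h3
  have : Module.Finite F[X] W.CoordinateRing :=
    Module.Finite.of_basis (WeierstrassCurve.Affine.CoordinateRing.basis W)
  exact Algebra.norm_eq_zero_iff.mp ((transcendental_iff.mp hx) _ h3)

/-- The embedding of the function field attached to a point with transcendental abscissa. -/
noncomputable def tau {x y : L} (h : (W⁄L).Equation x y) (hx : Transcendental F x) :
    FnField W →ₐ[F] L :=
  IsFractionRing.liftAlgHom (g := evalHom W h) (evalHom_injective W h hx)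

lemma tau_algebraMap {x y : L} (h : (W⁄L).Equation x y) (hx : Transcendental F x)
    (a : W.CoordinateRing) :
    tau W h hx (algebraMap W.CoordinateRing (FnField W) a) = evalHom W h a :=
  IsFractionRing.lift_algebraMap (evalHom_injective W h hx) a

lemma tau_algebraMap_poly {x y : L} (h : (W⁄L).Equation x y) (hx : Transcendental F x)
    (p : F[X]) : tau W h hx (algebraMap F[X] (FnField W) p) = aeval x p := by
  rw [IsScalarTower.algebraMap_apply F[X] W.CoordinateRing (FnField W), tau_algebraMap,
    evalHom_algebraMap]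

lemma tau_xGen {x y : L} (h : (W⁄L).Equation x y) (hx : Transcendental F x) :
    tau W h hx (xGen W) = x := by
  rw [xGen, tau_algebraMap_poly, aeval_X]

lemma tau_yGen {x y : L} (h : (W⁄L).Equation x y) (hx : Transcendental F x) :
    tau W h hx (yGen W) = y := by
  rw [yGen, tau_algebraMap, evalHom, AdjoinRoot.liftAlgHom_root]

lemma algHom_ext_gen {f g : FnField W →ₐ[F] L} (h₁ : f (xGen W) = g (xGen W))
    (h₂ : f (yGen W) = g (yGen W)) : f = g := by
  refine IsLocalization.algHom_ext (nonZeroDivisors W.CoordinateRing) ?_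
  refine AlgHom.coe_ringHom_injective (AdjoinRoot.ringHom_ext (RingHom.ext fun p => ?_) h₂)
  have hf : f.comp (IsScalarTower.toAlgHom F F[X] (FnField W)) =
      g.comp (IsScalarTower.toAlgHom F F[X] (FnField W)) := Polynomial.algHom_ext h₁
  have := DFunLike.congr_fun hf p
  simpa [IsScalarTower.algebraMap_apply F[X] W.CoordinateRing (FnField W),
    AdjoinRoot.algebraMap_eq] using! this

end Tau

/-- The involution `(x, y) ↦ (x, -y - a₁x - a₃)` of the function field. -/
noncomputable def conj : FnField W →ₐ[F] FnField W :=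
  tau W ((WeierstrassCurve.Affine.equation_neg ..).mpr (equation_gen W)) (transcendental_xGen W)

lemma conj_algebraMap_poly (p : F[X]) :
    conj W (algebraMap F[X] (FnField W) p) = algebraMap F[X] (FnField W) p := by
  rw [conj, tau_algebraMap_poly, algebraMap_poly_eq_aeval]

lemma conj_xGen : conj W (xGen W) = xGen W := conj_algebraMap_poly W X

lemma conj_yGen : conj W (yGen W) = (W⁄(FnField W)).negY (xGen W) (yGen W) := by
  rw [conj, tau_yGen]

lemma negY_gen : (W⁄(FnField W)).negY (xGen W) (yGen W) =
    -yGen W - algebraMap F[X] (FnField W) (C W.a₁ * X + C W.a₃) := by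
  rw [algebraMap_poly_eq_aeval]
  simp [WeierstrassCurve.Affine.negY, WeierstrassCurve.Affine.baseChange]
  ring

lemma algebraMap_add_mul_yGen_eq_zero {p q : F[X]}
    (h : algebraMap F[X] (FnField W) p + algebraMap F[X] (FnField W) q * yGen W = 0) :
    p = 0 ∧ q = 0 := by
  refine WeierstrassCurve.Affine.CoordinateRing.smul_basis_eq_zero (W' := W) ?_
  apply IsFractionRing.injective W.CoordinateRing (FnField W)
  rw [map_zero, map_add, WeierstrassCurve.Affine.CoordinateRing.smul,
    WeierstrassCurve.Affine.CoordinateRing.smul, mul_one, map_mul]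
  simpa [IsScalarTower.algebraMap_apply F[X] W.CoordinateRing (FnField W),
    AdjoinRoot.algebraMap_eq, yGen] using! h

lemma exists_eq_add_mul_yGen (a : FnField W) :
    ∃ P Q N : F[X], N ≠ 0 ∧ a * algebraMap F[X] (FnField W) N =
      algebraMap F[X] (FnField W) P + algebraMap F[X] (FnField W) Q * yGen W := by
  obtain ⟨n, d, hd, rfl⟩ := IsFractionRing.div_surjective W.CoordinateRing a
  obtain ⟨p, q, hpq⟩ := WeierstrassCurve.Affine.CoordinateRing.exists_smul_basis_eq d
  have : Module.Finite F[X] W.CoordinateRing :=
    Module.Finite.of_basis (WeierstrassCurve.Affine.CoordinateRing.basis W)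
  have hd0 : d ≠ 0 := nonZeroDivisors.ne_zero hd
  have hN : Algebra.norm F[X] d ≠ 0 := fun h0 => hd0 (Algebra.norm_eq_zero_iff.mp h0)
  obtain ⟨d', hd'⟩ : d ∣ algebraMap F[X] W.CoordinateRing (Algebra.norm F[X] d) := by
    rw [← hpq]
    refine ⟨WeierstrassCurve.Affine.CoordinateRing.mk W
      (C p + C q * (-(Y : F[X][Y]) - C (C W.a₁ * X + C W.a₃))), ?_⟩
    refine (WeierstrassCurve.Affine.CoordinateRing.coe_norm_smul_basis (W' := W) p q).trans ?_
    rw [map_mul, WeierstrassCurve.Affine.CoordinateRing.smul,
      WeierstrassCurve.Affine.CoordinateRing.smul, mul_one, map_add, map_mul]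
  obtain ⟨P, Q, hPQ⟩ := WeierstrassCurve.Affine.CoordinateRing.exists_smul_basis_eq (n * d')
  refine ⟨P, Q, _, hN, ?_⟩
  have hd1 : algebraMap W.CoordinateRing (FnField W) d ≠ 0 :=
    (map_ne_zero_iff _ (IsFractionRing.injective W.CoordinateRing (FnField W))).mpr hd0
  have h := congrArg (algebraMap W.CoordinateRing (FnField W)) hPQ
  rw [map_add, WeierstrassCurve.Affine.CoordinateRing.smul,
    WeierstrassCurve.Affine.CoordinateRing.smul, mul_one, map_mul, map_mul] at h
  have h' : algebraMap F[X] (FnField W) P + algebraMap F[X] (FnField W) Q * yGen W =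
      algebraMap W.CoordinateRing (FnField W) n * algebraMap W.CoordinateRing (FnField W) d' := by
    simpa [IsScalarTower.algebraMap_apply F[X] W.CoordinateRing (FnField W),
      AdjoinRoot.algebraMap_eq, yGen] using! h
  rw [h', IsScalarTower.algebraMap_apply F[X] W.CoordinateRing (FnField W), hd', map_mul]
  field_simp

section Elliptic

variable [W.IsElliptic]

lemma gen_ne_negY : yGen W ≠ (W⁄(FnField W)).negY (xGen W) (yGen W) := by
  intro h
  rw [negY_gen] at h
  have h0 : algebraMap F[X] (FnField W) (C W.a₁ * X + C W.a₃) +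
      algebraMap F[X] (FnField W) (C 2) * yGen W = 0 := by
    rw [show (C (2 : F)) = (2 : F[X]) from map_ofNat C 2, map_ofNat]
    linear_combination h
  obtain ⟨h1, h2⟩ := algebraMap_add_mul_yGen_eq_zero W h0
  have ha₁ : W.a₁ = 0 := by simpa using congrArg (fun p => coeff p 1) h1
  have ha₃ : W.a₃ = 0 := by simpa using congrArg (fun p => coeff p 0) h1
  have h2' : (2 : F) = 0 := C_eq_zero.mp h2
  refine W.isUnit_Δ.ne_zero ?_
  simp only [WeierstrassCurve.Δ, WeierstrassCurve.b₂, WeierstrassCurve.b₄, WeierstrassCurve.b₆,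
    WeierstrassCurve.b₈, ha₁, ha₃]
  have h4 : (4 : F) = 0 := by linear_combination 2 * h2'
  simp [h2', h4]

/-- Reduced expression of an element fixed by the involution. -/
lemma exists_isCoprime_of_conj_eq {a : FnField W} (ha : conj W a = a) :
    ∃ A B : F[X], IsCoprime A B ∧ B ≠ 0 ∧
      a * algebraMap F[X] (FnField W) B = algebraMap F[X] (FnField W) A := by
  classical
  obtain ⟨P, Q, N, hN, h⟩ := exists_eq_add_mul_yGen W a
  have h' := congrArg (conj W) h
  rw [map_mul, ha, map_add, map_mul, conj_algebraMap_poly, conj_algebraMap_poly,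
    conj_algebraMap_poly, conj_yGen, h] at h'
  have hQ : algebraMap F[X] (FnField W) Q = 0 := by
    by_contra hQ
    exact gen_ne_negY W (mul_left_cancel₀ hQ (add_left_cancel h'))
  rw [hQ, zero_mul, add_zero] at h
  obtain ⟨A, B, c, hAB, hA, hB⟩ := UniqueFactorizationMonoid.exists_reduced_factors' P N hN
  have hc : c ≠ 0 := by rintro rfl; exact hN (by rw [← hB, zero_mul])
  refine ⟨A, B, hAB.isCoprime, ?_, ?_⟩
  · rintro rfl; exact hN (by rw [← hB, mul_zero])
  · refine mul_left_cancel₀
      ((map_ne_zero_iff _ (algebraMap_poly_injective W)).mpr hc) ?_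
    rw [← map_mul, hA, ← h, ← hB, map_mul]
    ring

end Elliptic

private lemma eq_zero_of_max_eq_bot {P Q : F[X]}
    (h : max (2 • P.degree) (2 • Q.degree + 3) = ⊥) : P = 0 ∧ Q = 0 := by
  obtain ⟨h1, h2⟩ := max_eq_bot.mp h
  constructor <;> by_contra h0
  · rw [degree_eq_natDegree h0, ← WithBot.coe_natCast, ← WithBot.coe_nsmul] at h1
    exact WithBot.coe_ne_bot h1
  · rw [degree_eq_natDegree h0, ← WithBot.coe_natCast, ← WithBot.coe_nsmul,
      ← WithBot.coe_ofNat, ← WithBot.coe_add] at h2
    exact WithBot.coe_ne_bot h2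

private lemma of_max_eq_two_mul {P Q : F[X]} {n : ℕ}
    (h : max (2 • P.degree) (2 • Q.degree + 3) = 2 • (n : WithBot ℕ)) :
    P ≠ 0 ∧ P.natDegree = n := by
  have hn : 2 • (n : WithBot ℕ) = ((2 * n : ℕ) : WithBot ℕ) := by simp
  rw [hn] at h
  have hbot : ∀ {R : F[X]}, R = 0 → 2 • R.degree = ⊥ := fun hR => by
    rw [hR, degree_zero, two_nsmul, WithBot.bot_add]
  have hdeg : ∀ {R : F[X]}, R ≠ 0 → 2 • R.degree = ((2 * R.natDegree : ℕ) : WithBot ℕ) := fun hR => by
    rw [degree_eq_natDegree hR]; simp
  rcases eq_or_ne Q 0 with hQ | hQ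
  · rw [hbot hQ, WithBot.bot_add, max_eq_left bot_le] at h
    rcases eq_or_ne P 0 with hP | hP
    · rw [hbot hP] at h
      exact absurd h.symm (by exact WithBot.coe_ne_bot)
    · rw [hdeg hP] at h
      have : 2 * P.natDegree = 2 * n := by exact_mod_cast h
      exact ⟨hP, by omega⟩
  · rcases eq_or_ne P 0 with hP | hP
    · rw [hbot hP, max_eq_right bot_le, hdeg hQ] at h
      have : 2 * Q.natDegree + 3 = 2 * n := by exact_mod_cast h
      omega
    · rw [hdeg hP, hdeg hQ] at h
      have hQ' : (2 * Q.natDegree + 3 : ℕ) = (((2 * Q.natDegree : ℕ) : WithBot ℕ) + 3) := by simp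
      rw [← hQ', ← (Nat.mono_cast (α := WithBot ℕ)).map_max, Nat.cast_inj] at h
      exact ⟨hP, by omega⟩

/-- The constant field is algebraically closed in the function field: quadratic version. -/
lemma mem_range_of_conj_sum_prod {a : FnField W} {e c : F}
    (he : a + conj W a = algebraMap F (FnField W) e)
    (hc : a * conj W a = algebraMap F (FnField W) c) :
    a ∈ (algebraMap F (FnField W)).range := by
  rcases eq_or_ne c 0 with rfl | hc0
  · rw [map_zero, mul_eq_zero, map_eq_zero] at hc
    exact ⟨0, by rw [map_zero]; rcases hc with h | h <;> exact h.symm⟩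
  obtain ⟨P, Q, N, hN, h⟩ := exists_eq_add_mul_yGen W a
  have key : ∀ (b : FnField W) (P : F[X]) (c : F),
      b * algebraMap F[X] (FnField W) N =
        algebraMap F[X] (FnField W) P + algebraMap F[X] (FnField W) Q * yGen W →
      b * conj W b = algebraMap F (FnField W) c →
      max (2 • P.degree) (2 • Q.degree + 3) = (C c * N ^ 2).degree := by
    intro b P c h hc
    rw [← WeierstrassCurve.Affine.CoordinateRing.degree_norm_smul_basis (W' := W)]
    congr 1
    apply algebraMap_poly_injective W
    have h' := congrArg (conj W) h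
    rw [map_mul, map_add, map_mul, conj_algebraMap_poly, conj_algebraMap_poly,
      conj_algebraMap_poly, conj_yGen, negY_gen] at h'
    have e1 : algebraMap F[X] (FnField W) (C c * N ^ 2) =
        (b * algebraMap F[X] (FnField W) N) * (conj W b * algebraMap F[X] (FnField W) N) := by
      rw [map_mul, map_pow, ← Polynomial.algebraMap_eq, ← IsScalarTower.algebraMap_apply, ← hc]
      ring
    rw [e1, h, h']
    refine (IsScalarTower.algebraMap_apply F[X] W.CoordinateRing (FnField W) _).trans ?_
    rw [show algebraMap F[X] W.CoordinateRing _ = _ from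
      WeierstrassCurve.Affine.CoordinateRing.coe_norm_smul_basis (W' := W) P Q, map_mul]
    simp [IsScalarTower.algebraMap_apply F[X] W.CoordinateRing (FnField W),
      AdjoinRoot.algebraMap_eq, yGen, mul_add]
  have key1 := key a P c h hc
  rw [degree_mul, degree_pow, degree_C hc0, zero_add, degree_eq_natDegree hN] at key1
  set n := N.natDegree
  obtain ⟨hP0, hP⟩ := of_max_eq_two_mul key1
  set k := -(P.leadingCoeff / N.leadingCoeff) with hk
  have hlt : (P + C k * N).degree < (n : WithBot ℕ) := by
    rw [degree_lt_iff_coeff_zero]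
    intro m hm
    rw [coeff_add, coeff_C_mul]
    rcases hm.eq_or_lt with rfl | hm'
    · rw [hk, show N.coeff n = N.leadingCoeff from rfl,
        show P.coeff n = P.leadingCoeff by rw [leadingCoeff, hP]]
      field_simp [leadingCoeff_ne_zero.mpr hN]
      ring
    · rw [coeff_eq_zero_of_natDegree_lt (p := N) hm',
        coeff_eq_zero_of_natDegree_lt (p := P) (hP.trans_lt hm')]
      simp
  have key2 := key (a + algebraMap F (FnField W) k) (P + C k * N) (c + e * k + k ^ 2)
    (by
      rw [add_mul, h, map_add, map_mul, ← Polynomial.algebraMap_eq,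
        ← IsScalarTower.algebraMap_apply]
      ring)
    (by
      rw [map_add, AlgHom.commutes, map_add, map_add, map_mul, map_pow, ← he, ← hc]
      ring)
  rcases eq_or_ne (c + e * k + k ^ 2) 0 with h0 | h0
  · rw [h0, C_0, zero_mul, degree_zero] at key2
    obtain ⟨hP', hQ⟩ := eq_zero_of_max_eq_bot key2
    refine ⟨-k, ?_⟩
    refine mul_right_cancel₀ ((map_ne_zero_iff _ (algebraMap_poly_injective W)).mpr hN) ?_
    rw [h, hQ, eq_neg_of_add_eq_zero_left hP',
      IsScalarTower.algebraMap_apply F F[X] (FnField W), Polynomial.algebraMap_eq]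
    simp
  · exfalso
    rw [degree_mul, degree_pow, degree_C h0, zero_add, degree_eq_natDegree hN] at key2
    obtain ⟨h1, h2⟩ := of_max_eq_two_mul key2
    rw [degree_eq_natDegree h1, h2] at hlt
    exact lt_irrefl _ hlt

end Fermat.Agent.EC.Frob
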