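import Fermat.Agent.EC.Torsion.Pair
import Mathlib.LinearAlgebra.Charpoly.Basic
import Mathlib.LinearAlgebra.Determinant
import Mathlib.LinearAlgebra.Trace
import Mathlib.LinearAlgebra.Matrix.Charpoly.Coeff
import Mathlib.LinearAlgebra.Charpoly.ToMatrix
import Mathlib.Data.Nat.Factorization.Induction

/-!
# Trace and determinant from a quadratic relation and the size of kernels

An additive endomorphism `f` of `A` with `f² - a f + q = 0` on `A[n²] ≅ (ℤ/n²)²`, such that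
`m² ∣ c² - a c + q` whenever `f = c` on `A[m]`, has trace `a` and determinant `q` on `A[n]`.
-/

set_option autoImplicit false

namespace Fermat.Agent.EC.Frob

theorem pow_dvd_of_pow_two_mul_dvd_mul {p k : ℕ} (hp : p.Prime) {x y : ℤ}
    (h : ((p ^ (2 * k) : ℕ) : ℤ) ∣ x * y) (hx : ¬ ((p ^ k : ℕ) : ℤ) ∣ x) :
    ((p ^ k : ℕ) : ℤ) ∣ y := by
  rw [Int.natCast_dvd] at h hx ⊢
  rw [Int.natAbs_mul] at h
  obtain ⟨j, hj, hg⟩ := (Nat.dvd_prime_pow hp).mp (Nat.gcd_dvd_left (p ^ (2 * k)) x.natAbs)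
  have hjk : j < k := by
    by_contra hge
    push Not at hge
    exact hx ((pow_dvd_pow p hge).trans (hg ▸ Nat.gcd_dvd_right _ _))
  have h' : p ^ (2 * k) ∣ p ^ j * y.natAbs := hg ▸ dvd_gcd_mul_of_dvd_mul h
  rw [show 2 * k = j + (2 * k - j) by omega, pow_add] at h'
  exact (pow_dvd_pow p (by omega)).trans
    (Nat.dvd_of_mul_dvd_mul_left (pow_pos hp.pos j) h')

/-- If a `2 × 2` matrix satisfies `X² - aX + q` modulo `n²` and `m² ∣ c² - ac + q` whenever it is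
congruent to the scalar `c` modulo `m ∣ n`, then its trace is `a` and its determinant `q`
modulo `n`. -/
theorem trace_det_congr {l : ℕ} (hl : l.Prime) {a q α β γ δ : ℤ} (n : ℕ) :
    ¬ l ∣ n →
    ((n ^ 2 : ℕ) : ℤ) ∣ α ^ 2 + β * γ - a * α + q →
    ((n ^ 2 : ℕ) : ℤ) ∣ β * (α + δ - a) →
    ((n ^ 2 : ℕ) : ℤ) ∣ γ * (α + δ - a) →
    ((n ^ 2 : ℕ) : ℤ) ∣ δ ^ 2 + β * γ - a * δ + q →
    (∀ m : ℕ, m ∣ n → (m : ℤ) ∣ β → (m : ℤ) ∣ γ → (m : ℤ) ∣ α - δ →
      ∀ c : ℤ, ¬ (l : ℤ) ∣ c → (m : ℤ) ∣ c - α → (m : ℤ) ^ 2 ∣ c ^ 2 - a * c + q) →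
    (n : ℤ) ∣ α + δ - a ∧ (n : ℤ) ∣ α * δ - β * γ - q := by
  induction n using Nat.recOnPrimeCoprime with
  | zero => intro h; exact absurd (dvd_zero l) h
  | coprime m₁ m₂ _ _ hco ih₁ ih₂ =>
    intro hn h₁ h₂ h₃ h₄ hs
    have hd₁ : ((m₁ ^ 2 : ℕ) : ℤ) ∣ (((m₁ * m₂) ^ 2 : ℕ) : ℤ) :=
      Int.natCast_dvd_natCast.mpr (pow_dvd_pow_of_dvd (dvd_mul_right m₁ m₂) 2)
    have hd₂ : ((m₂ ^ 2 : ℕ) : ℤ) ∣ (((m₁ * m₂) ^ 2 : ℕ) : ℤ) :=
      Int.natCast_dvd_natCast.mpr (pow_dvd_pow_of_dvd (dvd_mul_left m₂ m₁) 2)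
    obtain ⟨t₁, d₁⟩ := ih₁ (fun h => hn (h.mul_right m₂)) (hd₁.trans h₁) (hd₁.trans h₂)
      (hd₁.trans h₃) (hd₁.trans h₄) (fun m hm => hs m (hm.mul_right m₂))
    obtain ⟨t₂, d₂⟩ := ih₂ (fun h => hn (h.mul_left m₁)) (hd₂.trans h₁) (hd₂.trans h₂)
      (hd₂.trans h₃) (hd₂.trans h₄) (fun m hm => hs m (hm.mul_left m₁))
    have hco' : IsCoprime (m₁ : ℤ) (m₂ : ℤ) := Int.isCoprime_iff_nat_coprime.mpr hco
    push_cast
    exact ⟨hco'.mul_dvd t₁ t₂, hco'.mul_dvd d₁ d₂⟩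
  | prime_pow p k hp =>
    intro hn h₁ h₂ h₃ h₄ hs
    have hk2 : (p ^ k) ^ 2 = p ^ (2 * k) := by ring
    rw [hk2] at h₁ h₂ h₃ h₄
    have hdd : ((p ^ k : ℕ) : ℤ) ∣ ((p ^ (2 * k) : ℕ) : ℤ) :=
      Int.natCast_dvd_natCast.mpr (pow_dvd_pow p (by omega))
    by_cases hsc : ((p ^ k : ℕ) : ℤ) ∣ β ∧ ((p ^ k : ℕ) : ℤ) ∣ γ ∧ ((p ^ k : ℕ) : ℤ) ∣ α - δ
    · obtain ⟨hβ, hγ, hαδ⟩ := hsc
      set m : ℤ := ((p ^ k : ℕ) : ℤ) with hm
      have hlm : ¬ (l : ℤ) ∣ m := by rwa [hm, Int.natCast_dvd_natCast]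
      have hlp : Prime (l : ℤ) := Nat.prime_iff_prime_int.mp hl
      obtain ⟨c, j, hc, hcj, hj, hcα⟩ : ∃ c j : ℤ, ¬ (l : ℤ) ∣ c ∧ ¬ (l : ℤ) ∣ c + j * m ∧
          IsCoprime m j ∧ m ∣ c - α := by
        by_cases hl2 : l = 2
        · subst hl2
          have hm2 : IsCoprime m 2 :=
            (hlp.coprime_iff_not_dvd.mpr hlm).symm
          by_cases hα : (2 : ℤ) ∣ α
          · refine ⟨α + m, 2, fun h => hlm ?_, fun h => hlm ?_, hm2, ⟨1, by ring⟩⟩
            · have := dvd_sub h hα; simpa using this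
            · have := dvd_sub (dvd_sub h hα) (dvd_mul_right (2 : ℤ) m)
              simpa [add_assoc] using this
          · refine ⟨α, 2, hα, fun h => hα ?_, hm2, ⟨0, by ring⟩⟩
            simpa using dvd_sub h (dvd_mul_right (2 : ℤ) m)
        · have hl3 : ¬ (l : ℤ) ∣ 2 := fun h => hl2 <| by
            refine (Nat.prime_dvd_prime_iff_eq hl Nat.prime_two).mp ?_
            exact_mod_cast h
          by_cases h0 : (l : ℤ) ∣ α
          · refine ⟨α + m, 1, fun h => hlm ?_, fun h => ?_, isCoprime_one_right, ⟨1, by ring⟩⟩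
            · simpa using dvd_sub h h0
            · have : (l : ℤ) ∣ 2 * m := by
                have := dvd_sub h h0
                exact this.trans (dvd_of_eq (by ring))
              exact hlm ((hlp.dvd_or_dvd this).resolve_left hl3)
          · by_cases h1 : (l : ℤ) ∣ α + m
            · refine ⟨α + 2 * m, 1, fun h => hlm ?_, fun h => ?_, isCoprime_one_right,
                ⟨2, by ring⟩⟩
              · have := dvd_sub h h1
                exact this.trans (dvd_of_eq (by ring))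
              · have : (l : ℤ) ∣ 2 * m := by
                  have := dvd_sub h h1
                  exact this.trans (dvd_of_eq (by ring))
                exact hlm ((hlp.dvd_or_dvd this).resolve_left hl3)
            · exact ⟨α, 1, h0, by rwa [one_mul], isCoprime_one_right, ⟨0, by ring⟩⟩
      have e₁ := hs (p ^ k) dvd_rfl hβ hγ hαδ c hc hcα
      have e₂ := hs (p ^ k) dvd_rfl hβ hγ hαδ (c + j * m) hcj
        (by rw [add_sub_right_comm]; exact dvd_add hcα (dvd_mul_left m j))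
      rw [← hm] at e₁ e₂
      have hm0 : m ≠ 0 := by rw [hm]; exact_mod_cast (pow_ne_zero k hp.ne_zero)
      have e₃ : m * m ∣ m * (j * (2 * c - a) + j ^ 2 * m) := by
        rw [← sq]
        exact (dvd_sub e₂ e₁).trans (dvd_of_eq (by ring))
      have e₄ := (mul_dvd_mul_iff_left hm0).mp e₃
      have e₅ : m ∣ j * (2 * c - a) := by
        have := dvd_sub e₄ (dvd_mul_left m (j ^ 2))
        simpa using this
      have ha : m ∣ 2 * c - a := hj.dvd_of_dvd_mul_left e₅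
      obtain ⟨u, hu⟩ := hcα
      obtain ⟨v, hv⟩ := ha
      obtain ⟨w, hw⟩ := hαδ
      obtain ⟨b₁, hb⟩ := hβ
      obtain ⟨z, hz⟩ := (dvd_pow_self m two_ne_zero).trans e₁
      refine ⟨⟨v - 2 * u - w, by linear_combination hv - 2 * hu - hw⟩, ?_⟩
      refine ⟨-u * (2 * α + m * u) - α * w - b₁ * γ + v * c - z, ?_⟩
      have hc' : c = α + m * u := by linear_combination hu
      subst hc'
      linear_combination -α * hw - γ * hb + (α + m * u) * hv - hz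
    · have key : ((p ^ k : ℕ) : ℤ) ∣ α + δ - a := by
        rcases not_and_or.mp hsc with h | h
        · exact pow_dvd_of_pow_two_mul_dvd_mul hp h₂ h
        rcases not_and_or.mp h with h | h
        · exact pow_dvd_of_pow_two_mul_dvd_mul hp h₃ h
        · refine pow_dvd_of_pow_two_mul_dvd_mul hp ?_ h
          exact (dvd_sub h₁ h₄).trans (dvd_of_eq (by ring))
      refine ⟨key, ?_⟩
      exact (dvd_sub (key.mul_left α) (hdd.trans h₁)).trans (dvd_of_eq (by ring))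

section Group

open Polynomial

variable {A : Type*} [AddCommGroup A]

/-- `f² - a f + q = 0` on `A[n²] ≅ (ℤ/n²)²` together with the scalar condition determines the
characteristic polynomial of `f` on `A[n]`. -/
theorem charpoly_eq_of_rel {l : ℕ} (hl : l.Prime) {n : ℕ} (hn : 1 < n) (hln : ¬ l ∣ n)
    (f : A →+ A) {a q : ℤ} {g₁ g₂ : A} (hg : IsTorsionPair (n ^ 2) g₁ g₂)
    (hcard : Nat.card (Submodule.torsionBy ℤ A (n ^ 2 : ℕ)) = (n ^ 2) ^ 2)
    (hcard' : Nat.card (Submodule.torsionBy ℤ A n) = n ^ 2)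
    (hrel : ∀ P, ((n ^ 2 : ℕ) : ℤ) • P = 0 → f (f P) - a • f P + q • P = 0)
    (hscal : ∀ m : ℕ, m ∣ n → ∀ c : ℤ, ¬ (l : ℤ) ∣ c →
      (∀ P, (m : ℤ) • P = 0 → f P = c • P) → (m : ℤ) ^ 2 ∣ c ^ 2 - a * c + q)
    [Module (ZMod n) (Submodule.torsionBy ℤ A n)]
    (φ : Module.End (ZMod n) (Submodule.torsionBy ℤ A n))
    (hφ : ∀ x : Submodule.torsionBy ℤ A n, (φ x : A) = f x)
    [Module.Free (ZMod n) (Submodule.torsionBy ℤ A n)]
    [Module.Finite (ZMod n) (Submodule.torsionBy ℤ A n)] :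
    LinearMap.charpoly φ = X ^ 2 - C (a : ZMod n) * X + C (q : ZMod n) ∧
      LinearMap.trace (ZMod n) _ φ = (a : ZMod n) ∧ LinearMap.det φ = (q : ZMod n) := by
  have : NeZero n := ⟨by omega⟩
  have : NeZero (n ^ 2) := ⟨pow_ne_zero 2 (NeZero.ne n)⟩
  have : Fact (1 < n) := ⟨hn⟩
  obtain ⟨e, he₁, he₂⟩ := hg.exists_addEquiv hcard
  have repr : ∀ P : A, ((n ^ 2 : ℕ) : ℤ) • P = 0 → ∃ s t : ℤ, P = s • g₁ + t • g₂ := by
    intro P hP
    obtain ⟨⟨s, t⟩, hst⟩ := e.surjective ⟨P, (Submodule.mem_torsionBy_iff _ _).mpr hP⟩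
    obtain ⟨s, rfl⟩ := ZMod.intCast_surjective s
    obtain ⟨t, rfl⟩ := ZMod.intCast_surjective t
    refine ⟨s, t, ?_⟩
    have hdec : ((s : ZMod (n ^ 2)), (t : ZMod (n ^ 2))) =
        s • ((1 : ZMod (n ^ 2)), (0 : ZMod (n ^ 2))) + t • ((0 : ZMod (n ^ 2)), (1 : ZMod (n ^ 2))) := by
      simp
    rw [hdec, map_add, map_zsmul, map_zsmul] at hst
    simpa [he₁, he₂] using (congrArg Subtype.val hst).symm
  obtain ⟨α, γ, hf₁⟩ := repr (f g₁) (by rw [← map_zsmul, hg.1, map_zero])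
  obtain ⟨β, δ, hf₂⟩ := repr (f g₂) (by rw [← map_zsmul, hg.2.1, map_zero])
  have r₁ := hrel g₁ hg.1
  have r₂ := hrel g₂ hg.2.1
  simp only [hf₁, hf₂, map_add, map_zsmul] at r₁ r₂
  obtain ⟨c₁, c₂⟩ := hg.2.2 (α ^ 2 + β * γ - a * α + q) (γ * (α + δ - a))
    (by rw [← r₁]; module)
  obtain ⟨c₃, c₄⟩ := hg.2.2 (β * (α + δ - a)) (δ ^ 2 + β * γ - a * δ + q)
    (by rw [← r₂]; module)
  have hdiv : (n : ℤ) ∣ α + δ - a ∧ (n : ℤ) ∣ α * δ - β * γ - q := by
    refine trace_det_congr hl n hln c₁ c₃ c₂ c₄ fun m hm hβ hγ hαδ c hc hcα => ?_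
    refine hscal m hm c hc fun P hP => ?_
    obtain ⟨k, hk⟩ := hm.trans (dvd_pow_self n two_ne_zero)
    have hP2 : ((n ^ 2 : ℕ) : ℤ) • P = 0 := by
      rw [hk, Nat.cast_mul, mul_comm, mul_smul, hP, smul_zero]
    obtain ⟨s, t, rfl⟩ := repr P hP2
    obtain ⟨hs', ht'⟩ := hg.2.2 (m * s) (m * t) (by rw [← hP]; module)
    have hm0 : (m : ℤ) ≠ 0 := by
      intro h
      rw [Int.natCast_eq_zero.mp h, zero_mul] at hk
      exact NeZero.ne (n ^ 2) hk
    rw [hk, Nat.cast_mul] at hs' ht'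
    obtain ⟨s', rfl⟩ := (mul_dvd_mul_iff_left hm0).mp hs'
    obtain ⟨t', rfl⟩ := (mul_dvd_mul_iff_left hm0).mp ht'
    obtain ⟨b', rfl⟩ := hβ
    obtain ⟨c', rfl⟩ := hγ
    obtain ⟨u, hu⟩ := hcα
    obtain ⟨w, hw⟩ := hαδ
    have hδ : δ = c - (m : ℤ) * u - (m : ℤ) * w := by linear_combination -hu - hw
    have hα : α = c - (m : ℤ) * u := by linear_combination -hu
    subst hδ
    subst hα
    have z₁ : ((m * k : ℕ) : ℤ) • g₁ = 0 := by rw [← hk]; exact hg.1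
    have z₂ : ((m * k : ℕ) : ℤ) • g₂ = 0 := by rw [← hk]; exact hg.2.1
    push_cast at z₁ z₂
    simp only [map_add, map_zsmul, hf₁, hf₂]
    calc ((k : ℤ) * s') • ((c - (m : ℤ) * u) • g₁ + ((m : ℤ) * c') • g₂) +
          ((k : ℤ) * t') • (((m : ℤ) * b') • g₁ + (c - (m : ℤ) * u - (m : ℤ) * w) • g₂)
        = c • (((k : ℤ) * s') • g₁ + ((k : ℤ) * t') • g₂) +
          ((t' * b' - s' * u) • ((m : ℤ) * k) • g₁ +
            (s' * c' - t' * u - t' * w) • ((m : ℤ) * k) • g₂) := by module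
      _ = c • (((k : ℤ) * s') • g₁ + ((k : ℤ) * t') • g₂) := by
          rw [z₁, z₂, smul_zero, smul_zero, add_zero, add_zero]
  -- the basis of `A[n]`
  have hg' : IsTorsionPair n ((n : ℤ) • g₁) ((n : ℤ) • g₂) := by
    have h2 : ((n ^ 2 : ℕ) : ℤ) = (n : ℤ) * n := by push_cast; ring
    refine ⟨by rw [← mul_smul, ← h2, hg.1], by rw [← mul_smul, ← h2, hg.2.1], fun s t h => ?_⟩
    obtain ⟨h₁, h₂⟩ := hg.2.2 (n * s) (n * t) (by rw [← h]; module)
    rw [h2] at h₁ h₂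
    have hn0 : (n : ℤ) ≠ 0 := by exact_mod_cast NeZero.ne n
    exact ⟨(mul_dvd_mul_iff_left hn0).mp h₁, (mul_dvd_mul_iff_left hn0).mp h₂⟩
  obtain ⟨e', he'₁, he'₂⟩ := hg'.exists_addEquiv hcard'
  let b : Module.Basis (Fin 2) (ZMod n) (Submodule.torsionBy ℤ A n) :=
    (Module.Basis.finTwoProd (ZMod n)).map
      (e'.toLinearEquiv fun c x => ZMod.map_smul e'.toAddMonoidHom c x)
  have hb₀ : (b 0 : A) = (n : ℤ) • g₁ := by simp only [b, Module.Basis.map_apply, Module.Basis.finTwoProd_zero]; exact he'₁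
  have hb₁ : (b 1 : A) = (n : ℤ) • g₂ := by simp only [b, Module.Basis.map_apply, Module.Basis.finTwoProd_one]; exact he'₂
  have hφ₀ : φ (b 0) = (α : ZMod n) • b 0 + (γ : ZMod n) • b 1 := by
    apply Subtype.ext
    rw [hφ, Submodule.coe_add, Int.cast_smul_eq_zsmul, Int.cast_smul_eq_zsmul,
      Submodule.coe_smul_of_tower, Submodule.coe_smul_of_tower, hb₀, hb₁, map_zsmul, hf₁]
    module
  have hφ₁ : φ (b 1) = (β : ZMod n) • b 0 + (δ : ZMod n) • b 1 := by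
    apply Subtype.ext
    rw [hφ, Submodule.coe_add, Int.cast_smul_eq_zsmul, Int.cast_smul_eq_zsmul,
      Submodule.coe_smul_of_tower, Submodule.coe_smul_of_tower, hb₀, hb₁, map_zsmul, hf₂]
    module
  have hM : LinearMap.toMatrix b b φ = !![(α : ZMod n), (β : ZMod n); (γ : ZMod n), (δ : ZMod n)] := by
    ext i j
    fin_cases i <;> fin_cases j <;>
      simp [LinearMap.toMatrix_apply, hφ₀, hφ₁]
  have ht : ((α : ZMod n) + δ) = a := by
    rw [← Int.cast_add, ZMod.intCast_eq_intCast_iff_dvd_sub]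
    exact (dvd_neg.mpr hdiv.1).trans (by rw [neg_sub])
  have hd : (α : ZMod n) * δ - β * γ = q := by
    rw [← Int.cast_mul, ← Int.cast_mul, ← Int.cast_sub, ZMod.intCast_eq_intCast_iff_dvd_sub]
    exact (dvd_neg.mpr hdiv.2).trans (by rw [neg_sub])
  have hTr : LinearMap.trace (ZMod n) _ φ = (a : ZMod n) := by
    rw [LinearMap.trace_eq_matrix_trace (ZMod n) b, hM, Matrix.trace_fin_two_of, ht]
  have hDet : LinearMap.det φ = (q : ZMod n) := by
    rw [← LinearMap.det_toMatrix b, hM, Matrix.det_fin_two_of, hd]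
  refine ⟨?_, hTr, hDet⟩
  rw [← LinearMap.charpoly_toMatrix φ b, hM, Matrix.charpoly_fin_two, Matrix.trace_fin_two_of,
    Matrix.det_fin_two_of, ht, hd]

end Group

end Fermat.Agent.EC.Frob
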