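import Fermat.Agent.EC.Frob.Fibre
import Mathlib.FieldTheory.Finite.Basic
import Mathlib.Algebra.Module.ZMod

/-!
Polynomials in the Frobenius endomorphism of `E` over a finite field, their degrees, and the
criterion for separability.
-/

open Polynomial WeierstrassCurve.Affine
open scoped Polynomial.Bivariate WeierstrassCurve.Affine

namespace Fermat.Agent.EC.Frob

universe u v w

variable {F : Type u} [Field F] [Fintype F] (W : WeierstrassCurve.Affine F)

section Op

variable {L : Type v} [Field L] [Algebra F L] [DecidableEq L]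
  {L' : Type w} [Field L'] [Algebra F L'] [DecidableEq L']

/-- The `q`-power Frobenius endomorphism of the points of `W` over an extension of `F`. -/
noncomputable def frobEnd : (W⁄L).Point →+ (W⁄L).Point :=
  Point.map (W' := W) (FiniteField.frobeniusAlgHom F L)

/-- The endomorphism `c(π)` for an integral polynomial `c`. -/
noncomputable def op (c : ℤ[X]) : (W⁄L).Point →+ (W⁄L).Point :=
  aeval (R := ℤ) (A := AddMonoid.End (W⁄L).Point) (frobEnd W : AddMonoid.End (W⁄L).Point) c

lemma op_add (c d : ℤ[X]) (P : (W⁄L).Point) : op W (c + d) P = op W c P + op W d P := by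
  simp only [op, map_add]; rfl

lemma op_sub (c d : ℤ[X]) (P : (W⁄L).Point) : op W (c - d) P = op W c P - op W d P := by
  simp only [op, map_sub]; rfl

lemma op_mul (c d : ℤ[X]) (P : (W⁄L).Point) : op W (c * d) P = op W c (op W d P) := by
  simp only [op, map_mul]; rfl

lemma op_X (P : (W⁄L).Point) : op W X P = frobEnd W P := by
  simp only [op, aeval_X]

lemma op_C (n : ℤ) (P : (W⁄L).Point) : op W (C n) P = n • P := by
  simp only [op, eq_intCast, map_intCast]
  exact AddMonoid.End.intCast_apply n P

lemma op_one (P : (W⁄L).Point) : op W 1 P = P := by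
  simp only [op, map_one]; rfl

lemma op_zero (P : (W⁄L).Point) : op W 0 P = 0 := by
  simp only [op, map_zero]; rfl

lemma frobEnd_some {x y : L} (h : (W⁄L).Nonsingular x y) :
    ∃ h', frobEnd W (.some x y h) = .some (x ^ Fintype.card F) (y ^ Fintype.card F) h' :=
  ⟨_, Point.map_some (FiniteField.frobeniusAlgHom F L) h⟩

lemma frobEnd_zero : frobEnd W (0 : (W⁄L).Point) = 0 := rfl

lemma map_frobEnd (f : L →ₐ[F] L') (P : (W⁄L).Point) :
    Point.map f (frobEnd W P) = frobEnd W (Point.map f P) := by
  have : f.comp (FiniteField.frobeniusAlgHom F L) = (FiniteField.frobeniusAlgHom F L').comp f :=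
    AlgHom.ext fun x => by simp [FiniteField.coe_frobeniusAlgHom]
  exact ((Point.map_map (FiniteField.frobeniusAlgHom F L) f P).trans (by rw [this])).trans
    (Point.map_map f (FiniteField.frobeniusAlgHom F L') P).symm

lemma map_op (f : L →ₐ[F] L') (c : ℤ[X]) (P : (W⁄L).Point) :
    Point.map f (op W c P) = op W c (Point.map f P) := by
  induction c using Polynomial.induction_on' generalizing P with
  | add c d hc hd => rw [op_add, op_add, map_add, hc, hd]
  | monomial n a =>
    induction n generalizing P with
    | zero => rw [monomial_zero_left, op_C, op_C, map_zsmul]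
    | succ n ih =>
      rw [← monomial_mul_X, op_mul, op_mul, ih, op_X, op_X, map_frobEnd]

variable [W.IsElliptic]

lemma op_mem_algPts (c : ℤ[X]) {Q : (W⁄L).Point} (hQ : Q ∈ algPts W (L := L)) :
    op W c Q ∈ algPts W (L := L) := by
  obtain ⟨P, rfl⟩ := hQ
  let _ : DecidableEq (algebraicClosure F L) := Classical.decEq _
  exact ⟨op W c P, map_op W (algebraicClosure F L).val c P⟩

lemma op_eq_evalPt [DecidableEq (FnField W)] (c : ℤ[X]) {x y : L} (h : (W⁄L).Nonsingular x y)
    (hx : Transcendental F x) :
    op W c (.some x y h) = evalPt W h hx (op W c (genPt W)) := by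
  rw [← evalPt_genPt W h hx]
  exact (map_op W (tau W h.1 hx) c (genPt W)).symm

end Op

section Generic

variable [DecidableEq (FnField W)] [W.IsElliptic]

/-- The point `c(π) g` of `E(F(W))`. -/
noncomputable def genOp (c : ℤ[X]) : (W⁄(FnField W)).Point :=
  op W c (genPt W)

lemma map_conj_genOp (c : ℤ[X]) : Point.map (conj W) (genOp W c) = -genOp W c := by
  rw [genOp, map_op, map_conj_genPt, map_neg]

/-- The degree of `c(π)`. -/
noncomputable def deg (c : ℤ[X]) : ℕ :=
  (exists_isXDeg W (map_conj_genOp W c)).choose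

lemma isXDeg_deg (c : ℤ[X]) : IsXDeg W (genOp W c) (deg W c) :=
  (exists_isXDeg W (map_conj_genOp W c)).choose_spec

lemma deg_eq {c : ℤ[X]} {d : ℕ} (h : IsXDeg W (genOp W c) d) : deg W c = d :=
  (isXDeg_deg W c).unique h

lemma genOp_add (c d : ℤ[X]) : genOp W (c + d) = genOp W c + genOp W d := op_add W c d _

lemma genOp_sub (c d : ℤ[X]) : genOp W (c - d) = genOp W c - genOp W d := op_sub W c d _

lemma deg_parallelogram (c d : ℤ[X]) :
    (deg W (c + d) : ℤ) + deg W (c - d) = 2 * deg W c + 2 * deg W d := by
  exact_mod_cast parallelogram (isXDeg_deg W c) (isXDeg_deg W d)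
    (genOp_add W c d ▸ isXDeg_deg W (c + d)) (genOp_sub W c d ▸ isXDeg_deg W (c - d))

lemma deg_one : deg W 1 = 1 := by
  refine deg_eq W ⟨X, 1, ⟨isCoprime_one_right, ?_⟩, by simp⟩
  rw [genOp, op_one]
  simp [genPt, xGen]

lemma deg_zero : deg W 0 = 0 :=
  deg_eq W (by rw [genOp, op_zero]; exact isXDeg_zero)

lemma deg_X_mul (c : ℤ[X]) : deg W (X * c) = Fintype.card F * deg W c := by
  obtain ⟨A, B, ⟨hcop, heq⟩, hd⟩ := isXDeg_deg W c
  refine deg_eq W ⟨A ^ Fintype.card F, B ^ Fintype.card F, ⟨hcop.pow, ?_⟩, ?_⟩
  · rw [genOp, op_mul, op_X]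
    rw [genOp] at heq
    revert heq
    generalize op W c (genPt W) = P
    rintro heq
    rcases P with _ | ⟨x, y, h⟩
    · rw [← Point.zero_def] at heq ⊢
      rw [frobEnd_zero]
      simp at heq ⊢
      simp [← heq, Fintype.card_ne_zero]
    · obtain ⟨h', he⟩ := frobEnd_some W h
      rw [he]
      simp only [Point.xRep_some, Matrix.cons_val_one,
        Matrix.cons_val_zero, mul_one, map_pow] at heq ⊢
      rw [heq, mul_pow]
  · rw [natDegree_pow, natDegree_pow, ← hd, mul_max]

lemma genOp_mem_range_of_deg_eq_zero [DecidableEq F] {c : ℤ[X]} (h : deg W c = 0) :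
    genOp W c ∈ (Point.map (W' := W) (Algebra.ofId F (FnField W))).range :=
  mem_range_of_isXDeg_zero W (map_conj_genOp W c) (h ▸ isXDeg_deg W c)

end Generic

section PowerSubgroup

variable (p : ℕ) [hp : Fact p.Prime] [CharP F p]

instance charP_fnField : CharP (FnField W) p :=
  charP_of_injective_algebraMap (algebraMap F (FnField W)).injective p

/-- The subfield of `p`-th powers. -/
noncomputable def powField : IntermediateField F (FnField W) :=
  { (frobenius (FnField W) p).fieldRange with
    algebraMap_mem' := fun r => by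
      obtain ⟨s, rfl⟩ := (PerfectRing.bijective_frobenius (R := F) (p := p)).2 r
      exact ⟨algebraMap F (FnField W) s, by exact (map_pow (algebraMap F (FnField W)) s p).symm⟩
    inv_mem' := fun _ h => (frobenius (FnField W) p).fieldRange.inv_mem h }

lemma mem_powField {z : FnField W} : z ∈ powField W p ↔ ∃ w : FnField W, w ^ p = z :=
  ⟨fun ⟨w, hw⟩ => ⟨w, hw⟩, fun ⟨w, hw⟩ => ⟨w, hw⟩⟩

lemma pow_mem_powField (w : FnField W) : w ^ p ∈ powField W p :=
  (mem_powField W p).mpr ⟨w, rfl⟩

variable [DecidableEq (FnField W)]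

/-- The points with coordinates `p`-th powers. -/
noncomputable def powPts : AddSubgroup (W⁄(FnField W)).Point :=
  haveI : DecidableEq (powField W p) := Classical.decEq _
  (Point.map (W' := W) (powField W p).val).range

lemma mem_powPts_some {x y : FnField W} (h : (W⁄(FnField W)).Nonsingular x y) :
    Point.some x y h ∈ powPts W p ↔ x ∈ powField W p ∧ y ∈ powField W p := by
  let _ : DecidableEq (powField W p) := Classical.decEq _
  constructor
  · rintro ⟨P, hP⟩
    rcases P with _ | ⟨a, b, hab⟩
    · simp [← Point.zero_def] at hP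
    · rw [Point.map_some, Point.some.injEq] at hP
      exact ⟨hP.1 ▸ a.2, hP.2 ▸ b.2⟩
  · rintro ⟨hx, hy⟩
    have hn : (W⁄(powField W p)).Nonsingular (⟨x, hx⟩ : powField W p) (⟨y, hy⟩ : powField W p) :=
      (W.baseChange_nonsingular (f := (powField W p).val) (powField W p).val.injective
        (⟨x, hx⟩ : powField W p) (⟨y, hy⟩ : powField W p)).mp (by simpa using! h)
    exact ⟨.some _ _ hn, by simp [Point.map_some]⟩

lemma range_ofId_le_powPts [DecidableEq F] :
    (Point.map (W' := W) (Algebra.ofId F (FnField W))).range ≤ powPts W p := by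
  rintro _ ⟨P, rfl⟩
  rcases P with _ | ⟨x, y, h⟩
  · exact zero_mem _
  · rw [Point.map_some, mem_powPts_some]
    exact ⟨(powField W p).algebraMap_mem x, (powField W p).algebraMap_mem y⟩

lemma frobEnd_mem_powPts (P : (W⁄(FnField W)).Point) : frobEnd W P ∈ powPts W p := by
  rcases P with _ | ⟨x, y, h⟩
  · exact zero_mem _
  · have hq : p ∣ Fintype.card F := by
      obtain ⟨n, -, hn⟩ := FiniteField.card F p
      exact hn ▸ dvd_pow_self p n.pos.ne'
    obtain ⟨m, hm⟩ := hq
    obtain ⟨h', he⟩ := frobEnd_some W h
    rw [he, mem_powPts_some]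
    constructor <;>
    · rw [hm, mul_comm, pow_mul]
      exact pow_mem_powField W p _

variable [W.IsElliptic]

lemma genPt_not_mem_powPts : genPt W ∉ powPts W p := by
  rw [genPt, mem_powPts_some]
  rintro ⟨hx, -⟩
  obtain ⟨w, hw⟩ := (mem_powField W p).mp hx
  have hconj : conj W w = w := frobenius_inj (FnField W) p (by
    rw [frobenius_def, frobenius_def, ← map_pow, hw, conj_xGen])
  obtain ⟨A, B, -, hB, he⟩ := exists_isCoprime_of_conj_eq W hconj
  have h2 := congrArg (· ^ p) he
  simp only [mul_pow, hw, ← map_pow] at h2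
  rw [xGen, ← map_mul] at h2
  have h3 := congrArg natDegree (algebraMap_poly_injective W h2)
  rw [natDegree_mul X_ne_zero (pow_ne_zero p hB), natDegree_X, natDegree_pow, natDegree_pow] at h3
  have hp1 := hp.out.one_lt
  have : p ∣ 1 := (Nat.dvd_add_left (dvd_mul_right p _)).mp (h3 ▸ dvd_mul_right p _)
  exact hp.out.one_lt.ne' (Nat.dvd_one.mp this)

/-- A point with `p`-th power abscissa which is not `2`-torsion has `p`-th power ordinate. -/
lemma mem_powPts_of_x_mem {x y : FnField W} (h : (W⁄(FnField W)).Nonsingular x y)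
    (hne : y ≠ (W⁄(FnField W)).negY x y) (hx : x ∈ powField W p) :
    Point.some x y h ∈ powPts W p := by
  rw [mem_powPts_some]
  refine ⟨hx, ?_⟩
  set S := powField W p
  set e := (W⁄(FnField W)).a₁ * x + (W⁄(FnField W)).a₃ with he
  set f := x ^ 3 + (W⁄(FnField W)).a₂ * x ^ 2 + (W⁄(FnField W)).a₄ * x + (W⁄(FnField W)).a₆ with hf
  have hS : ∀ r : F, algebraMap F (FnField W) r ∈ S := S.algebraMap_mem
  have heS : e ∈ S := add_mem (mul_mem (hS _) hx) (hS _)
  have hfS : f ∈ S :=
    add_mem (add_mem (add_mem (pow_mem hx 3) (mul_mem (hS _) (pow_mem hx 2))) (mul_mem (hS _) hx))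
      (hS _)
  have hE : y ^ 2 + e * y = f := by
    have := (equation_iff x y).mp h.1
    rw [he, hf]
    linear_combination this
  have hd : 2 * y + e ≠ 0 := fun h0 => hne (by rw [negY]; linear_combination h0)
  rcases hp.out.eq_two_or_odd with h2 | h2
  · have hc : (2 : FnField W) = 0 := by
      have := CharP.cast_eq_zero (FnField W) p
      rw [h2] at this
      exact_mod_cast this
    rw [hc, zero_mul, zero_add] at hd
    have : y = (f - y ^ 2) / e := by rw [eq_div_iff hd]; linear_combination hE
    rw [this]
    exact div_mem (sub_mem hfS (h2 ▸ pow_mem_powField W p y)) heS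
  · set z := 2 * y + e with hz
    have hzz : z ^ 2 ∈ S := by
      rw [show z ^ 2 = e * e + 4 * f by rw [hz]; linear_combination 4 * hE]
      exact add_mem (mul_mem heS heS) (mul_mem (ofNat_mem S 4) hfS)
    have hzS : z ∈ S := by
      have : z = z ^ p / (z ^ 2) ^ (p / 2) := by
        rw [eq_div_iff (pow_ne_zero _ (pow_ne_zero _ hd)), ← pow_mul, ← pow_succ']
        congr 1
        omega
      rw [this]
      exact div_mem (pow_mem_powField W p z) (pow_mem hzz _)
    have h2' : (2 : FnField W) ≠ 0 := by
      intro h0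
      have h0' : ((2 : ℕ) : FnField W) = 0 := by exact_mod_cast h0
      rw [CharP.cast_eq_zero_iff (FnField W) p] at h0'
      have := Nat.le_of_dvd two_pos h0'
      have := hp.out.two_le
      omega
    have : y = (z - e) / 2 := by rw [hz]; field_simp; ring
    rw [this]
    exact div_mem (sub_mem hzS heS) (ofNat_mem S 2)

omit [W.IsElliptic] [DecidableEq (FnField W)] in
/-- Vanishing Wronskian forces a `p`-th power. -/
lemma algebraMap_mem_powField_of_derivative {A B : F[X]} (hAB : IsCoprime A B)
    (h : derivative A * B - A * derivative B = 0) :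
    algebraMap F[X] (FnField W) A ∈ powField W p ∧
      algebraMap F[X] (FnField W) B ∈ powField W p := by
  have key : ∀ {A B : F[X]}, IsCoprime A B → derivative A * B = A * derivative B →
      derivative A = 0 := by
    intro A B hAB h
    by_contra hA
    have hdvd : A ∣ derivative A := hAB.dvd_of_dvd_mul_right ⟨derivative B, h⟩
    exact hA (eq_zero_of_dvd_of_degree_lt hdvd
      (degree_derivative_lt (fun h0 => hA (by rw [h0, derivative_zero]))))
  have hA := key hAB (sub_eq_zero.mp h)
  have hB := key hAB.symm (by linear_combination -h)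
  have main : ∀ {A : F[X]}, derivative A = 0 → algebraMap F[X] (FnField W) A ∈ powField W p := by
    intro A hA
    obtain ⟨A₁, hA₁⟩ : ∃ A₁ : F[X], A₁ ^ p = A := by
      refine ⟨(contract p A).map ↑(frobeniusEquiv F p).symm, ?_⟩
      rw [← map_frobenius_expand, map_expand, Polynomial.map_map,
        show (frobenius F p).comp ↑(frobeniusEquiv F p).symm = RingHom.id F from
          RingHom.ext fun a => frobenius_apply_frobeniusEquiv_symm F p a,
        Polynomial.map_id, expand_contract p hA hp.out.ne_zero]
    rw [← hA₁, map_pow]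
    exact pow_mem_powField W p _
  exact ⟨main hA, main hB⟩

end PowerSubgroup

end Fermat.Agent.EC.Frob
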