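import Fermat.Agent.EC.Frob.Linear
import Fermat.Agent.EC.Red.Qbar
import Fermat.Agent.EC.Red.Surjective
import Fermat.Agent.EC.Torsion.Rat
import Fermat.Prelude.Def_EllipticCurve_FrobeniusTrace

/-!
# From the special fibre to the Galois action on torsion at a good place
-/

set_option autoImplicit false

open IsLocalRing Polynomial
open WeierstrassCurve.Affine (Point)
open WeierstrassCurve.Affine.Point (galoisRepModuleEnd)
open scoped WeierstrassCurve.Affine

namespace Fermat.Agent.EC.Frob

variable (W : WeierstrassCurve ℤ) (A : ValuationSubring (AlgebraicClosure ℚ)) {l : ℕ}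

theorem isElliptic_specialFibre (hl : l.Prime) (hA : A.LiesOverPrime l)
    (hgood : W.IsGoodPrimeFor l) : (specialFibre W A).IsElliptic :=
  ⟨(specialFibre_Δ_ne_zero W A hl hA hgood).isUnit⟩

theorem isElliptic_map_rat (hgood : W.IsGoodPrimeFor l) :
    (W.map (Int.castRingHom ℚ)).IsElliptic := by
  refine ⟨isUnit_iff_ne_zero.mpr ?_⟩
  rw [WeierstrassCurve.map_Δ, eq_intCast, Int.cast_ne_zero]
  intro h
  exact hgood (h ▸ dvd_zero _)

/-- If the special fibre carries an endomorphism `π` compatible with `σ`, satisfying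
`π² - aπ + l = 0` and `#ker (π - c) = c² - ac + l`, then `σ` has characteristic polynomial
`X² - aX + l` on `E[n]`. -/
theorem charpoly_galois_of_core (hl : l.Prime) (hA : A.LiesOverPrime l)
    (hgood : W.IsGoodPrimeFor l) (σ : AlgebraicClosure ℚ ≃ₐ[ℚ] AlgebraicClosure ℚ) {a : ℤ}
    (π : (specialFibre W A).Point →+ (specialFibre W A).Point)
    (hπ : ∀ P : ((W.map (Int.castRingHom ℚ))⁄(AlgebraicClosure ℚ)).Point,
      (qbarModel W A).red (σ • P) = π ((qbarModel W A).red P))
    (hrel : ∀ P, π (π P) - a • π P + (l : ℤ) • P = 0)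
    (hker : ∀ c : ℤ, ¬ (l : ℤ) ∣ c →
      (Nat.card (π - c • AddMonoidHom.id _).ker : ℤ) = c ^ 2 - a * c + l)
    {n : ℕ} (hn : 1 < n) (hln : ¬ l ∣ n)
    [Module.Free (ZMod n) (Submodule.torsionBy ℤ
      ((W.map (Int.castRingHom ℚ))⁄(AlgebraicClosure ℚ)).Point n)]
    [Module.Finite (ZMod n) (Submodule.torsionBy ℤ
      ((W.map (Int.castRingHom ℚ))⁄(AlgebraicClosure ℚ)).Point n)] :
    LinearMap.charpoly
        (galoisRepModuleEnd (K := AlgebraicClosure ℚ) ℚ (W.map (Int.castRingHom ℚ)) n σ) =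
        X ^ 2 - C (a : ZMod n) * X + C (l : ZMod n) ∧
      LinearMap.trace (ZMod n) _
        (galoisRepModuleEnd (K := AlgebraicClosure ℚ) ℚ (W.map (Int.castRingHom ℚ)) n σ) =
        (a : ZMod n) ∧
      LinearMap.det
        (galoisRepModuleEnd (K := AlgebraicClosure ℚ) ℚ (W.map (Int.castRingHom ℚ)) n σ) =
        (l : ZMod n) := by
  classical
  have hE := isElliptic_map_rat W hgood
  have hEb := isElliptic_specialFibre W A hl hA hgood
  have hΔ := specialFibre_Δ_ne_zero W A hl hA hgood
  have := isAlgClosed_residueField A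
  have : WeierstrassCurve.IsElliptic
      ((W.map (Int.castRingHom ℚ))⁄(AlgebraicClosure ℚ)).toAffine :=
    inferInstanceAs (((W.map (Int.castRingHom ℚ)).map
      (algebraMap ℚ (AlgebraicClosure ℚ))).IsElliptic)
  have hn0 : n ≠ 0 := by omega
  have hres : ∀ {m : ℕ}, ¬ l ∣ m → (m : ResidueField A) ≠ 0 := fun hm =>
    natCast_residue_ne_zero A hl hA hm
  have hln2 : ¬ l ∣ n ^ 2 := fun h => hln (hl.dvd_of_dvd_pow h)
  set f : ((W.map (Int.castRingHom ℚ))⁄(AlgebraicClosure ℚ)).Point →+
      ((W.map (Int.castRingHom ℚ))⁄(AlgebraicClosure ℚ)).Point :=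
    DistribSMul.toAddMonoidHom _ σ with hf
  obtain ⟨g₁, g₂, hg⟩ := exists_isTorsionPair_point
    ((W.map (Int.castRingHom ℚ))⁄(AlgebraicClosure ℚ)).toAffine (n := n ^ 2)
    (Nat.cast_ne_zero.mpr (pow_ne_zero 2 hn0))
  have key := charpoly_eq_of_rel hl hn hln f (a := a) (q := (l : ℤ)) hg
    (natCard_torsion_rat _ (pow_ne_zero 2 hn0)) (natCard_torsion_rat _ hn0)
    (fun P hP => ?_) (fun m hm c hc hfix => ?_)
    (galoisRepModuleEnd (K := AlgebraicClosure ℚ) ℚ (W.map (Int.castRingHom ℚ)) n σ)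
    (fun x => rfl)
  · simpa only [Int.cast_natCast] using key
  · -- the relation on `E[n²]`
    rw [natCast_zsmul] at hP
    have hfP : ∀ Q, n ^ 2 • Q = 0 → n ^ 2 • f Q = 0 := fun Q hQ => by
      rw [← map_nsmul, hQ, map_zero]
    refine (qbarModel W A).redHom_injOn_torsion hΔ (hres hln2) ?_ (smul_zero _) ?_
    · rw [smul_add, smul_sub, smul_comm (n ^ 2) a, smul_comm (n ^ 2) (l : ℤ), hfP P hP,
        hfP _ (hfP P hP), hP]
      simp
    · rw [← (qbarModel W A).redHom_apply hΔ, map_add, map_sub, map_zsmul, map_zsmul]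
      simp only [RedModel.redHom_apply, hf, DistribSMul.toAddMonoidHom_apply, hπ,
        RedModel.red_zero]
      exact hrel _
  · -- the scalar condition
    have hlm : ¬ l ∣ m := fun h => hln (h.trans hm)
    have hm0 : m ≠ 0 := by rintro rfl; exact hlm (dvd_zero l)
    have : Finite (Submodule.torsionBy ℤ (specialFibre W A).Point m) :=
      finite_torsionBy (specialFibre W A) hm0
    have hbij := (qbarModel W A).redTorsion_bijective hΔ (hres hlm) (by
      rw [natCard_torsion_rat _ hm0, natCard_torsionBy (specialFibre W A) (hres hlm)])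
    have hle : (Submodule.torsionBy ℤ (specialFibre W A).Point m).toAddSubgroup ≤
        (π - c • AddMonoidHom.id _).ker := by
      intro Q hQ
      obtain ⟨⟨P, hP⟩, hPQ⟩ := hbij.2 ⟨Q, hQ⟩
      have hPQ' : (qbarModel W A).red P = Q := congrArg Subtype.val hPQ
      have h := congrArg ((qbarModel W A).redHom hΔ)
        (hfix P ((Submodule.mem_torsionBy_iff _ _).mp hP))
      rw [map_zsmul] at h
      simp only [RedModel.redHom_apply, hf, DistribSMul.toAddMonoidHom_apply, hπ, hPQ'] at h
      simp [h]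
    have hdvd := AddSubgroup.card_dvd_of_le hle
    rw [show Nat.card (Submodule.torsionBy ℤ (specialFibre W A).Point m).toAddSubgroup = m ^ 2 from
      natCard_torsionBy (specialFibre W A) (hres hlm)] at hdvd
    rw [← hker c hc]
    exact_mod_cast hdvd

end Fermat.Agent.EC.Frob
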